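/-
GATE-C / C4 (G8) p-capitulation by Kummer layers, part 2a (helper79): pure Dedekind-domain algebra.
`(X) 𝔄^p = (Y) 𝔅`, `y'^p = Y X^(p-1)` (i.e. `y'/X` is a `p`-th root of `Y/X`)
⟹ `(X) 𝔄 = (y') 𝔅'` with `𝔅'^p = 𝔅`.
-/
import Mathlib

set_option autoImplicit false

namespace Fermat.Agent.GC.Capit

variable {B : Type*} [CommRing B] [IsDedekindDomain B]

/-- Extraction of a `p`-th root at the level of ideals. -/
theorem exists_ideal_root {p : ℕ} (hp : p ≠ 0) (𝔄 𝔅 : Ideal B) (X Y y' : B)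
    (hX : X ≠ 0) (hY : Y ≠ 0)
    (h : Ideal.span {X} * 𝔄 ^ p = Ideal.span {Y} * 𝔅) (hy' : y' ^ p = Y * X ^ (p - 1)) :
    ∃ 𝔅' : Ideal B, 𝔅' ^ p = 𝔅 ∧ Ideal.span {X} * 𝔄 = Ideal.span {y'} * 𝔅' := by
  have hy0 : y' ≠ 0 := by
    rintro rfl
    rw [zero_pow hp] at hy'
    exact mul_ne_zero hY (pow_ne_zero _ hX) hy'.symm
  have hpp : p - 1 + 1 = p := Nat.sub_add_cancel (Nat.pos_of_ne_zero hp)
  have key : (Ideal.span {X} * 𝔄) ^ p = Ideal.span {y'} ^ p * 𝔅 := by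
    calc (Ideal.span {X} * 𝔄) ^ p = Ideal.span {X} ^ (p - 1 + 1) * 𝔄 ^ p := by
          rw [mul_pow, hpp]
      _ = Ideal.span {X} ^ (p - 1) * (Ideal.span {X} * 𝔄 ^ p) := by
          rw [pow_succ, mul_assoc]
      _ = Ideal.span {X} ^ (p - 1) * (Ideal.span {Y} * 𝔅) := by rw [h]
      _ = Ideal.span {y'} ^ p * 𝔅 := by
          rw [← mul_assoc, Ideal.span_singleton_pow, Ideal.span_singleton_pow,
            Ideal.span_singleton_mul_span_singleton, hy', mul_comm Y]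
  have hdvd : Ideal.span {y'} ∣ Ideal.span {X} * 𝔄 := by
    rw [← UniqueFactorizationMonoid.pow_dvd_pow_iff_dvd hp, key]
    exact Dvd.intro _ rfl
  obtain ⟨𝔅', h𝔅'⟩ := hdvd
  refine ⟨𝔅', ?_, h𝔅'⟩
  have hne : Ideal.span {y'} ^ p ≠ 0 := by
    apply pow_ne_zero
    rw [Ne, Ideal.zero_eq_bot, Ideal.span_singleton_eq_bot]
    exact hy0
  apply mul_left_cancel₀ hne
  rw [← key, h𝔅', mul_pow]

end Fermat.Agent.GC.Capit
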