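/-
GATE-C / C4 (G8) p-capitulation by Kummer layers, part 2b (helper79): the number field step.
`(x) 𝔞^p = (y) 𝔟` in `𝓞 K`, `α = y/x`:
 * `p ∣ ord_v α` for every `v ∤ 𝔟` (KU-unram form);
 * in any `L ⊇ K` containing `β` with `β^p = α`: `(x) 𝔞𝓞_L = (βx) 𝔟'` with `𝔟'^p = 𝔟𝓞_L`.
-/
import Mathlib
import Fermat.Agent.S14.SI.KL.Local
import Fermat.Agent.S14.SI.KL.Integral
import Fermat.Agent.GC.Capit.Dedekind

set_option autoImplicit false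

open NumberField IsDedekindDomain

namespace Fermat.Agent.GC.Capit

open Fermat.Agent.S14.SI

variable {K : Type*} [Field K] [NumberField K]

/-- An element of `𝔞` generating `𝔞` locally at `v`: `(a) = 𝔞 𝔠` with `v ∤ 𝔠`. -/
theorem exists_local_generator (v : HeightOneSpectrum (𝓞 K)) (𝔞 : Ideal (𝓞 K)) (h𝔞 : 𝔞 ≠ ⊥) :
    ∃ (a : 𝓞 K) (𝔠 : Ideal (𝓞 K)), a ≠ 0 ∧ Ideal.span {a} = 𝔞 * 𝔠 ∧ ¬ 𝔠 ≤ v.asIdeal := by
  have hlt : 𝔞 * v.asIdeal < 𝔞 := by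
    refine lt_of_le_of_ne Ideal.mul_le_left ?_
    intro he
    have h1 : 𝔞 * v.asIdeal = 𝔞 * 1 := by rw [he, mul_one]
    have h2 : v.asIdeal = 1 := mul_left_cancel₀ (by rwa [Ne, Ideal.zero_eq_bot]) h1
    exact v.isPrime.ne_top (by rw [h2, Ideal.one_eq_top])
  obtain ⟨a, ha, ha'⟩ := SetLike.exists_of_lt hlt
  obtain ⟨𝔠, h𝔠⟩ := Ideal.dvd_span_singleton.2 ha
  refine ⟨a, 𝔠, ?_, h𝔠, ?_⟩
  · rintro rfl
    exact ha' (Ideal.zero_mem _)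
  · intro hle
    obtain ⟨𝔡, rfl⟩ := Ideal.dvd_iff_le.2 hle
    apply ha'
    have : Ideal.span {a} ≤ 𝔞 * v.asIdeal := by
      rw [h𝔠, ← mul_assoc]
      exact Ideal.mul_le_left
    exact this (Ideal.mem_span_singleton_self a)

/-- From `(x) 𝔞^p = (y) 𝔟` and `v ∤ 𝔟`: `α = y/x` is a `p`-th power times a unit at `v`. -/
theorem exists_isUnitAt_div_pow_of_ideal_eq {p : ℕ} (v : HeightOneSpectrum (𝓞 K))
    (𝔞 𝔟 : Ideal (𝓞 K)) (h𝔞 : 𝔞 ≠ ⊥) (x y : 𝓞 K) (hx : x ≠ 0) (hy : y ≠ 0)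
    (h : Ideal.span {x} * 𝔞 ^ p = Ideal.span {y} * 𝔟) (h𝔟 : ¬ 𝔟 ≤ v.asIdeal)
    (α : Kˣ) (hα : (α : K) * (x : K) = (y : K)) :
    ∃ z : Kˣ, IsUnitAt v.asIdeal (α / z ^ p) := by
  obtain ⟨a, 𝔠, ha0, ha, h𝔠⟩ := exists_local_generator v 𝔞 h𝔞
  have haK : (a : K) ≠ 0 := RingOfIntegers.coe_ne_zero_iff.2 ha0
  have hxK : (x : K) ≠ 0 := RingOfIntegers.coe_ne_zero_iff.2 hx
  have heq : Ideal.span {x * a ^ p} * (⊤ : Ideal (𝓞 K)) = Ideal.span {y} * (𝔟 * 𝔠 ^ p) := by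
    rw [Ideal.mul_top, ← Ideal.span_singleton_mul_span_singleton, ← Ideal.span_singleton_pow, ha,
      mul_pow, ← mul_assoc, h, mul_assoc]
  have h1 : ¬ (⊤ : Ideal (𝓞 K)) ≤ v.asIdeal := fun hle =>
    v.isPrime.ne_top (top_le_iff.1 hle)
  have h2 : ¬ 𝔟 * 𝔠 ^ p ≤ v.asIdeal := by
    intro hle
    rcases v.isPrime.mul_le.1 hle with h3 | h3
    · exact h𝔟 h3
    · exact h𝔠 (v.isPrime.le_of_pow_le h3)
  have hval := KL.intValuation_eq_of_mul_eq v (mul_ne_zero hx (pow_ne_zero p ha0)) hy h1 h2 heq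
  refine ⟨Units.mk0 (a : K) haK, ?_⟩
  rw [KL.isUnitAt_iff]
  have e1 : v.valuation K ((α : K) * (x : K)) = v.valuation K (x : K) * v.valuation K (a : K) ^ p := by
    rw [hα]
    have := hval
    rw [← v.valuation_of_algebraMap (K := K), ← v.valuation_of_algebraMap (K := K),
      algebraMap.coe_mul, algebraMap.coe_pow, map_mul, map_pow] at this
    exact this.symm
  rw [map_mul, mul_comm] at e1
  have hx0 : v.valuation K (x : K) ≠ 0 := (Valuation.ne_zero_iff _).2 hxK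
  have e2 : v.valuation K (α : K) = v.valuation K (a : K) ^ p := mul_left_cancel₀ hx0 e1
  have ha0' : v.valuation K (a : K) ^ p ≠ 0 := pow_ne_zero _ ((Valuation.ne_zero_iff _).2 haK)
  rw [Units.val_div_eq_div_val, Units.val_pow_eq_pow_val, Units.val_mk0, map_div₀, map_pow, e2,
    div_self ha0']

variable {L : Type*} [Field L] [NumberField L] [Algebra K L]

/-- **(Cap2)**, ideal form.  `(x) 𝔞^p = (y) 𝔟` in `𝓞 K` and `β ∈ L`, `β^p = y/x`.  Then `βx ∈ 𝓞 L` and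
`(x) 𝔞𝓞_L = (βx) 𝔟'` for an ideal `𝔟'` of `𝓞 L` with `𝔟'^p = 𝔟𝓞_L`. -/
theorem exists_ideal_root_map {p : ℕ} (hp : p ≠ 0) (𝔞 𝔟 : Ideal (𝓞 K)) (x y : 𝓞 K)
    (hx : x ≠ 0) (hy : y ≠ 0) (h : Ideal.span {x} * 𝔞 ^ p = Ideal.span {y} * 𝔟)
    (β : L) (hβ : β ^ p * algebraMap K L (x : K) = algebraMap K L (y : K)) :
    ∃ (y' : 𝓞 L) (𝔟' : Ideal (𝓞 L)), y' ≠ 0 ∧ (y' : L) = β * algebraMap K L (x : K) ∧
      𝔟' ^ p = 𝔟.map (algebraMap (𝓞 K) (𝓞 L)) ∧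
      Ideal.span {algebraMap (𝓞 K) (𝓞 L) x} * 𝔞.map (algebraMap (𝓞 K) (𝓞 L)) =
        Ideal.span {y'} * 𝔟' := by
  have hpp : p - 1 + 1 = p := Nat.sub_add_cancel (Nat.pos_of_ne_zero hp)
  have hcoe : ∀ t : 𝓞 K, ((algebraMap (𝓞 K) (𝓞 L) t : 𝓞 L) : L) = algebraMap K L (t : K) := by
    intro t
    show algebraMap (𝓞 L) L (algebraMap (𝓞 K) (𝓞 L) t) = algebraMap K L (algebraMap (𝓞 K) K t)
    rw [← IsScalarTower.algebraMap_apply (𝓞 K) (𝓞 L) L, IsScalarTower.algebraMap_apply (𝓞 K) K L]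
  -- `(β x)^p = y x^(p-1)`
  have hpow : (β * algebraMap K L (x : K)) ^ p =
      algebraMap K L (y : K) * algebraMap K L (x : K) ^ (p - 1) := by
    have hXp : algebraMap K L (x : K) ^ p =
        algebraMap K L (x : K) ^ (p - 1) * algebraMap K L (x : K) := by
      rw [← pow_succ, hpp]
    rw [mul_pow, hXp, ← hβ]; ring
  have hint : IsIntegral ℤ (β * algebraMap K L (x : K)) := by
    apply IsIntegral.of_pow (Nat.pos_of_ne_zero hp)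
    rw [hpow, ← hcoe, ← hcoe, ← map_pow, ← map_mul]
    exact RingOfIntegers.isIntegral_coe _
  set y' : 𝓞 L := ⟨β * algebraMap K L (x : K), hint⟩ with hy'
  have hy'coe : (y' : L) = β * algebraMap K L (x : K) := rfl
  have hy'p : y' ^ p = algebraMap (𝓞 K) (𝓞 L) y * algebraMap (𝓞 K) (𝓞 L) x ^ (p - 1) := by
    apply RingOfIntegers.coe_injective
    show algebraMap (𝓞 L) L (y' ^ p) = algebraMap (𝓞 L) L _
    rw [map_pow, map_mul, map_pow]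
    show (y' : L) ^ p = ((algebraMap (𝓞 K) (𝓞 L) y : 𝓞 L) : L) *
      ((algebraMap (𝓞 K) (𝓞 L) x : 𝓞 L) : L) ^ (p - 1)
    rw [hcoe, hcoe, hy'coe, hpow]
  have hinj : Function.Injective (algebraMap (𝓞 K) (𝓞 L)) :=
    RingOfIntegers.algebraMap.injective K L
  have hX : algebraMap (𝓞 K) (𝓞 L) x ≠ 0 := (map_ne_zero_iff _ hinj).2 hx
  have hY : algebraMap (𝓞 K) (𝓞 L) y ≠ 0 := (map_ne_zero_iff _ hinj).2 hy
  have hmap : Ideal.span {algebraMap (𝓞 K) (𝓞 L) x} * 𝔞.map (algebraMap (𝓞 K) (𝓞 L)) ^ p =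
      Ideal.span {algebraMap (𝓞 K) (𝓞 L) y} * 𝔟.map (algebraMap (𝓞 K) (𝓞 L)) := by
    have := congrArg (Ideal.map (algebraMap (𝓞 K) (𝓞 L))) h
    rwa [Ideal.map_mul, Ideal.map_mul, Ideal.map_pow, Ideal.map_span, Ideal.map_span,
      Set.image_singleton, Set.image_singleton] at this
  obtain ⟨𝔟', h1, h2⟩ := exists_ideal_root hp _ _ _ _ y' hX hY hmap hy'p
  refine ⟨y', 𝔟', ?_, hy'coe, h1, h2⟩
  intro h0
  rw [h0, zero_pow hp] at hy'p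
  exact mul_ne_zero hY (pow_ne_zero _ hX) hy'p.symm

end Fermat.Agent.GC.Capit
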