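/-
GATE-C / C4 (G8) p-capitulation by Kummer layers, part 1 (helper79).
`L = K(α^{1/p})` (K ∋ μ_p, `p ∣ ord_v α` for all `v ∉ S`, `S ⊇ {v ∣ p}`) is Galois over `K`
and unramified outside `S` (T14 inertia form).
-/
import Mathlib
import Fermat.Agent.S14.SI.Kummer
import Fermat.Agent.S14.SI.KL.Root

set_option autoImplicit false

open NumberField IsDedekindDomain Polynomial

namespace Fermat.Agent.GC.Capit

open Fermat.Agent.S14.SI

section general

variable {K : Type*} [Field K]

/-- In a splitting field `L` of `X^p - x` over `K ∋ ζ_p`, `x ≠ 0`, ANY root `β` generates `L`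
(no irreducibility hypothesis). -/
theorem adjoin_root_eq_top_of_isSplittingField {p : ℕ} (hp : 0 < p) (ζ : K)
    (hζ : IsPrimitiveRoot ζ p) (x : K) (hx : x ≠ 0)
    (L : Type*) [Field L] [Algebra K L] [IsSplittingField K L (X ^ p - C x : K[X])]
    (β : L) (hβ : β ^ p = algebraMap K L x) :
    IntermediateField.adjoin K {β} = ⊤ := by
  have hβ0 : β ≠ 0 := by
    rintro rfl
    rw [zero_pow hp.ne'] at hβ
    exact hx ((map_eq_zero (algebraMap K L)).1 hβ.symm)
  have hζL : IsPrimitiveRoot (algebraMap K L ζ) p :=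
    hζ.map_of_injective (algebraMap K L).injective
  have hne : NeZero p := ⟨hp.ne'⟩
  have hroots : (X ^ p - C x : K[X]).rootSet L ⊆
      (IntermediateField.adjoin K {β} : Set L) := by
    intro γ hγ
    rw [mem_rootSet] at hγ
    have hγp : γ ^ p = algebraMap K L x := by
      have := hγ.2
      simpa [sub_eq_zero] using this
    have h1 : (γ / β) ^ p = 1 := by
      rw [div_pow, hγp, hβ, div_self]
      rw [← hβ]; exact pow_ne_zero _ hβ0
    obtain ⟨i, -, hi⟩ := hζL.eq_pow_of_pow_eq_one h1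
    have hγ' : γ = algebraMap K L (ζ ^ i) * β := by
      rw [map_pow, hi, div_mul_cancel₀ _ hβ0]
    rw [hγ']
    exact mul_mem (IntermediateField.algebraMap_mem _ _)
      (IntermediateField.mem_adjoin_simple_self K β)
  have htop : Algebra.adjoin K ((X ^ p - C x : K[X]).rootSet L) = ⊤ :=
    IsSplittingField.adjoin_rootSet L (X ^ p - C x : K[X])
  apply IntermediateField.toSubalgebra_injective
  rw [IntermediateField.top_toSubalgebra, eq_top_iff, ← htop]
  exact Algebra.adjoin_le hroots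

/-- `L = K(β)`, `β^p = x ≠ 0`, `ζ_p ∈ K` ⟹ `L` is a splitting field of `X^p - x`. -/
theorem isSplittingField_of_adjoin_root_eq_top {p : ℕ} (hp : 0 < p) (ζ : K)
    (hζ : IsPrimitiveRoot ζ p) (x : K)
    (L : Type*) [Field L] [Algebra K L] [FiniteDimensional K L]
    (β : L) (hβ : β ^ p = algebraMap K L x) (hL : IntermediateField.adjoin K {β} = ⊤) :
    IsSplittingField K L (X ^ p - C x : K[X]) := by
  constructor
  · rw [Polynomial.map_sub, Polynomial.map_pow, Polynomial.map_C, Polynomial.map_X]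
    exact X_pow_sub_C_splits_of_isPrimitiveRoot
      (hζ.map_of_injective (algebraMap K L).injective) hβ
  · rw [eq_top_iff, ← IntermediateField.top_toSubalgebra, ← hL,
      IntermediateField.adjoin_simple_toSubalgebra_of_isAlgebraic (IsAlgebraic.of_finite K β)]
    apply Algebra.adjoin_mono
    rw [Set.singleton_subset_iff, mem_rootSet_of_ne (X_pow_sub_C_ne_zero hp x),
      aeval_def, eval₂_sub, eval₂_X_pow, eval₂_C, hβ, sub_self]

/-- `L = K(β)`, `β^p = x ≠ 0`, `ζ_p ∈ K`, `char K = 0` ⟹ `L/K` is Galois. -/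
theorem isGalois_of_adjoin_root_eq_top [CharZero K] {p : ℕ} (hp : 0 < p) (ζ : K)
    (hζ : IsPrimitiveRoot ζ p) (x : K) (hx : x ≠ 0)
    (L : Type*) [Field L] [Algebra K L] [FiniteDimensional K L]
    (β : L) (hβ : β ^ p = algebraMap K L x) (hL : IntermediateField.adjoin K {β} = ⊤) :
    IsGalois K L := by
  have := isSplittingField_of_adjoin_root_eq_top hp ζ hζ x L β hβ hL
  exact IsGalois.of_separable_splitting_field (p := (X ^ p - C x : K[X]))
    (separable_X_pow_sub_C x (by exact_mod_cast hp.ne') hx)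

end general

section numberfield

variable {K : Type*} [Field K] [NumberField K]

/-- Every root of `X^p - α` generates the Kummer extension `kummerExt K p α`. -/
theorem adjoin_root_kummerExt_eq_top {p : ℕ} (hp : 0 < p) (ζ : K)
    (hζ : IsPrimitiveRoot ζ p) (α : Kˣ)
    (β : kummerExt K p (α : K)) (hβ : β ^ p = algebraMap K _ (α : K)) :
    IntermediateField.adjoin K {β} = ⊤ :=
  adjoin_root_eq_top_of_isSplittingField hp ζ hζ (α : K) α.ne_zero _ β hβ

/-- **(Cap1)** `K ∋ ζ_p`, `S` a set of primes of `K` containing all primes above `p`, `α ∈ Kˣ` with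
`p ∣ ord_v α` for all `v ∉ S` (KU-unram form of the hypothesis).  Then `K(α^{1/p})/K` is unramified
at every prime `P` not above `S`: the inertia group of `P` is trivial. -/
theorem kummerExt_inertia_trivial_outside {p : ℕ} (hp : p.Prime) (ζ : K)
    (hζ : IsPrimitiveRoot ζ p) (S : Set (Ideal (𝓞 K)))
    (hS : ∀ v : Ideal (𝓞 K), v.IsPrime → (p : 𝓞 K) ∈ v → v ∈ S)
    (α : Kˣ)
    (hα : ∀ v : Ideal (𝓞 K), v.IsPrime → v ≠ ⊥ → v ∉ S → ∃ y : Kˣ, IsUnitAt v (α / y ^ p))
    (P : Ideal (𝓞 (kummerExt K p (α : K)))) [P.IsPrime] (hP : P ≠ ⊥)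
    (hPS : P.under (𝓞 K) ∉ S)
    (τ : kummerExt K p (α : K) ≃ₐ[K] kummerExt K p (α : K))
    (hτ : ∀ z : 𝓞 (kummerExt K p (α : K)), τ • z - z ∈ P) : τ = 1 := by
  have : IsGalois K (kummerExt K p (α : K)) := kummerExt_isGalois hp ζ hζ (α : K)
  obtain ⟨β, hβ⟩ := KL.exists_root_splittingField hp.pos (α : K)
  have hL := adjoin_root_kummerExt_eq_top hp.pos ζ hζ α β hβ
  have hPp : (p : 𝓞 (kummerExt K p (α : K))) ∉ P := by
    intro h
    apply hPS
    apply hS _ inferInstance
    rw [Ideal.under_def, Ideal.mem_comap, map_natCast]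
    exact h
  have hv0 : P.under (𝓞 K) ≠ ⊥ := Ideal.under_ne_bot (𝓞 K) hP
  exact inertia_trivial_of_dvd_ord hp ζ hζ α β hβ hL P hP hPp
    (hα _ inferInstance hv0 hPS) τ hτ

/-- **(Cap1), general form**: the same for ANY number field `L = K(β)`, `β^p = α`. -/
theorem inertia_trivial_outside_of_adjoin_root {p : ℕ} (hp : p.Prime) (ζ : K)
    (hζ : IsPrimitiveRoot ζ p) (S : Set (Ideal (𝓞 K)))
    (hS : ∀ v : Ideal (𝓞 K), v.IsPrime → (p : 𝓞 K) ∈ v → v ∈ S)
    (α : Kˣ)
    (hα : ∀ v : Ideal (𝓞 K), v.IsPrime → v ≠ ⊥ → v ∉ S → ∃ y : Kˣ, IsUnitAt v (α / y ^ p))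
    {L : Type*} [Field L] [NumberField L] [Algebra K L] [IsGalois K L]
    (β : L) (hβ : β ^ p = algebraMap K L (α : K)) (hL : IntermediateField.adjoin K {β} = ⊤)
    (P : Ideal (𝓞 L)) [P.IsPrime] (hP : P ≠ ⊥) (hPS : P.under (𝓞 K) ∉ S)
    (τ : L ≃ₐ[K] L) (hτ : ∀ z : 𝓞 L, τ • z - z ∈ P) : τ = 1 := by
  have hPp : (p : 𝓞 L) ∉ P := by
    intro h
    apply hPS
    apply hS _ inferInstance
    rw [Ideal.under_def, Ideal.mem_comap, map_natCast]
    exact h
  have hv0 : P.under (𝓞 K) ≠ ⊥ := Ideal.under_ne_bot (𝓞 K) hP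
  exact inertia_trivial_of_dvd_ord hp ζ hζ α β hβ hL P hP hPp
    (hα _ inferInstance hv0 hPS) τ hτ

end numberfield

end Fermat.Agent.GC.Capit
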