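/-
GATE-C / C4 (G8) p-capitulation by Kummer layers (helper79): the one-step theorem.

`K ∋ ζ_p` a number field, `S` a set of primes of `𝓞 K` containing all primes above `p`.
If the class of a nonzero ideal `𝔞` satisfies `[𝔞]^p ∈ ⟨classes supported on S⟩`
(`(x) 𝔞^p = (y) 𝔟`, `𝔟` supported on `S`), then with `α = y/x`, `L = K(α^{1/p})`:
 * `L/K` is Galois (cyclic of degree `1` or `p`) and unramified outside `S`;
 * `(x) 𝔞𝓞_L = (y') 𝔟'` with `𝔟'^p = 𝔟𝓞_L`; in particular `𝔟'` is supported above `S`: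
   the class of `𝔞` dies in `Cl_S(L)`.
-/
import Mathlib
import Fermat.Agent.GC.Capit.Unram
import Fermat.Agent.GC.Capit.Step

set_option autoImplicit false

open NumberField IsDedekindDomain Polynomial

namespace Fermat.Agent.GC.Capit

open Fermat.Agent.S14.SI

variable {K : Type*} [Field K] [NumberField K]

/-- `𝔟` is supported on `S`: every prime containing `𝔟` is in `S`. -/
def SupportedOn (S : Set (Ideal (𝓞 K))) (𝔟 : Ideal (𝓞 K)) : Prop :=
  ∀ v : Ideal (𝓞 K), v.IsPrime → 𝔟 ≤ v → v ∈ S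

/-- The primes of `𝓞 L` above the primes in `S`. -/
def primesAbove (L : Type*) [Field L] [NumberField L] [Algebra K L] (S : Set (Ideal (𝓞 K))) :
    Set (Ideal (𝓞 L)) :=
  {Q | Q.under (𝓞 K) ∈ S}

/-- If `𝔟'^p = 𝔟𝓞_L` and `𝔟` is supported on `S` then `𝔟'` is supported above `S`. -/
theorem supportedOn_of_pow_eq_map {L : Type*} [Field L] [NumberField L] [Algebra K L]
    (S : Set (Ideal (𝓞 K))) {𝔟 : Ideal (𝓞 K)} (h𝔟 : SupportedOn S 𝔟) {p : ℕ} (hp : p ≠ 0)
    {𝔟' : Ideal (𝓞 L)} (h : 𝔟' ^ p = 𝔟.map (algebraMap (𝓞 K) (𝓞 L))) :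
    SupportedOn (primesAbove L S) 𝔟' := by
  intro Q hQ hle
  have h1 : 𝔟.map (algebraMap (𝓞 K) (𝓞 L)) ≤ Q := by
    rw [← h]
    exact (Ideal.pow_le_self hp).trans hle
  exact h𝔟 _ (Ideal.IsPrime.under (𝓞 K) Q) (Ideal.map_le_iff_le_comap.1 h1)

end Fermat.Agent.GC.Capit
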