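/-
GATE-C / C4 (G8) p-capitulation by Kummer layers (helper79): `S`-classes in the class group.
`sClasses S` = subgroup of `ClassGroup (𝓞 K)` generated by the classes of the primes in `S`
(so `Cl_S(K) = ClassGroup (𝓞 K) ⧸ sClasses S`), and its description by ideals supported on `S`.
-/
import Mathlib
import Fermat.Agent.GC.Capit.Main

set_option autoImplicit false

open NumberField IsDedekindDomain nonZeroDivisors

namespace Fermat.Agent.GC.Capit

variable {K : Type*} [Field K] [NumberField K]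

/-- The subgroup of the class group generated by the classes of the (nonzero) primes in `S`. -/
noncomputable def sClasses (S : Set (Ideal (𝓞 K))) : Subgroup (ClassGroup (𝓞 K)) :=
  Subgroup.closure {c | ∃ I : (Ideal (𝓞 K))⁰, (I : Ideal (𝓞 K)).IsPrime ∧ (I : Ideal (𝓞 K)) ∈ S ∧
    c = ClassGroup.mk0 I}

theorem supportedOn_top (S : Set (Ideal (𝓞 K))) : SupportedOn S (⊤ : Ideal (𝓞 K)) :=
  fun _ hv hle => absurd (top_le_iff.1 hle) hv.ne_top

theorem SupportedOn.mul {S : Set (Ideal (𝓞 K))} {I J : Ideal (𝓞 K)} (hI : SupportedOn S I)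
    (hJ : SupportedOn S J) : SupportedOn S (I * J) := by
  intro v hv hle
  rcases hv.mul_le.1 hle with h | h
  · exact hI v hv h
  · exact hJ v hv h

theorem SupportedOn.pow {S : Set (Ideal (𝓞 K))} {I : Ideal (𝓞 K)} (hI : SupportedOn S I) (n : ℕ) :
    SupportedOn S (I ^ n) := by
  induction n with
  | zero => rw [pow_zero, Ideal.one_eq_top]; exact supportedOn_top S
  | succ k ih => rw [pow_succ]; exact ih.mul hI

theorem SupportedOn.of_dvd {S : Set (Ideal (𝓞 K))} {I J : Ideal (𝓞 K)} (hI : SupportedOn S I)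
    (h : J ∣ I) : SupportedOn S J :=
  fun v hv hle => hI v hv ((Ideal.le_of_dvd h).trans hle)

theorem supportedOn_prime {S : Set (Ideal (𝓞 K))} {v : Ideal (𝓞 K)} (hv : v.IsPrime) (h0 : v ≠ ⊥)
    (hS : v ∈ S) : SupportedOn S v := by
  intro w hw hle
  have : v = w := (hv.isMaximal h0).eq_of_le hw.ne_top hle
  exact this ▸ hS

/-- The class of a nonzero ideal supported on `S` lies in `sClasses S`. -/
theorem mk0_mem_sClasses (S : Set (Ideal (𝓞 K))) (𝔟 : Ideal (𝓞 K)) (h𝔟 : SupportedOn S 𝔟)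
    (h0 : 𝔟 ∈ (Ideal (𝓞 K))⁰) : ClassGroup.mk0 ⟨𝔟, h0⟩ ∈ sClasses S := by
  revert h0 h𝔟
  refine UniqueFactorizationMonoid.induction_on_prime
    (P := fun 𝔟 : Ideal (𝓞 K) => SupportedOn S 𝔟 → ∀ h0 : 𝔟 ∈ (Ideal (𝓞 K))⁰,
      ClassGroup.mk0 ⟨𝔟, h0⟩ ∈ sClasses S) 𝔟 ?_ ?_ ?_
  · intro _ h0
    exact absurd rfl (mem_nonZeroDivisors_iff_ne_zero.1 h0)
  · intro x hx _ h0
    have : (⟨x, h0⟩ : (Ideal (𝓞 K))⁰) = 1 := by
      apply Subtype.ext
      exact Ideal.isUnit_iff.1 hx |>.trans Ideal.one_eq_top.symm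
    rw [this, map_one]
    exact one_mem _
  · intro a v ha hv ih hsupp h0
    have hv0 : v ≠ 0 := hv.ne_zero
    have hvp : v.IsPrime := Ideal.isPrime_of_prime hv
    have hvS : v ∈ S := hsupp v hvp (Ideal.le_of_dvd (Dvd.intro _ rfl))
    have hvm : v ∈ (Ideal (𝓞 K))⁰ := mem_nonZeroDivisors_iff_ne_zero.2 hv0
    have ham : a ∈ (Ideal (𝓞 K))⁰ := mem_nonZeroDivisors_iff_ne_zero.2 ha
    have e : (⟨v * a, h0⟩ : (Ideal (𝓞 K))⁰) = ⟨v, hvm⟩ * ⟨a, ham⟩ := rfl
    rw [e, map_mul]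
    refine mul_mem (Subgroup.subset_closure ⟨⟨v, hvm⟩, hvp, hvS, rfl⟩) (ih ?_ ham)
    exact hsupp.of_dvd (Dvd.intro_left _ rfl)

/-- Description of `sClasses S` by ideals supported on `S`. -/
theorem mem_sClasses_iff (S : Set (Ideal (𝓞 K))) (c : ClassGroup (𝓞 K)) :
    c ∈ sClasses S ↔ ∃ I : (Ideal (𝓞 K))⁰, SupportedOn S (I : Ideal (𝓞 K)) ∧
      c = ClassGroup.mk0 I := by
  classical
  constructor
  · intro hc
    refine Subgroup.closure_induction (p := fun c _ => ∃ I : (Ideal (𝓞 K))⁰,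
      SupportedOn S (I : Ideal (𝓞 K)) ∧ c = ClassGroup.mk0 I) ?_ ?_ ?_ ?_ hc
    · rintro _ ⟨I, hIp, hIS, rfl⟩
      exact ⟨I, supportedOn_prime hIp (mem_nonZeroDivisors_iff_ne_zero.1 I.2) hIS, rfl⟩
    · refine ⟨1, ?_, (map_one _).symm⟩
      show SupportedOn S (1 : Ideal (𝓞 K))
      rw [Ideal.one_eq_top]; exact supportedOn_top S
    · rintro _ _ _ _ ⟨I, hI, rfl⟩ ⟨J, hJ, rfl⟩
      exact ⟨I * J, hI.mul hJ, (map_mul _ _ _).symm⟩
    · rintro _ _ ⟨I, hI, rfl⟩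
      refine ⟨I ^ (Fintype.card (ClassGroup (𝓞 K)) - 1), ?_, ?_⟩
      · show SupportedOn S ((I : Ideal (𝓞 K)) ^ _)
        exact hI.pow _
      · rw [map_pow, inv_eq_iff_mul_eq_one, ← pow_succ']
        have hpos : 0 < Fintype.card (ClassGroup (𝓞 K)) := Fintype.card_pos
        rw [Nat.sub_add_cancel hpos]
        exact pow_card_eq_one
  · rintro ⟨I, hI, rfl⟩
    exact mk0_mem_sClasses S I hI I.2

end Fermat.Agent.GC.Capit
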