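/-
GATE-C / C4 (G8) p-capitulation by Kummer layers (helper79): the one-step theorem in class-group
language.

`K ∋ ζ_p`, `S ⊇ {v ∣ p}`, `c ∈ Cl(𝓞 K)` with `c^p ∈ sClasses S` (i.e. `c` has order dividing `p` in
`Cl_S(K)`).  Then there is `α ∈ Kˣ` with `p ∣ ord_v α` for all `v ∉ S` (so `K(α^{1/p})/K` is
unramified outside `S`) such that in EVERY number field `L ⊇ K` containing a `p`-th root of `α`
the image of `c` lies in `sClasses (primes above S)`: `c` dies in `Cl_S(L)`.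
-/
import Mathlib
import Fermat.Agent.GC.Capit.ClassGroup

set_option autoImplicit false

open NumberField IsDedekindDomain nonZeroDivisors Polynomial

namespace Fermat.Agent.GC.Capit

open Fermat.Agent.S14.SI

universe u v

variable {K : Type u} [Field K] [NumberField K]

/-- **(Cap2, class-group form, explicit ideals)**. -/
theorem extendedHom_mem_sClasses_of_ideal_eq {p : ℕ} (hp : p ≠ 0) (S : Set (Ideal (𝓞 K)))
    (𝔞 𝔟 : Ideal (𝓞 K)) (h𝔞 : 𝔞 ∈ (Ideal (𝓞 K))⁰) (h𝔟0 : 𝔟 ≠ ⊥) (h𝔟 : SupportedOn S 𝔟)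
    (x y : 𝓞 K) (hx : x ≠ 0) (hy : y ≠ 0)
    (h : Ideal.span {x} * 𝔞 ^ p = Ideal.span {y} * 𝔟)
    (L : Type v) [Field L] [NumberField L] [Algebra K L] (β : L)
    (hβ : β ^ p * algebraMap K L (x : K) = algebraMap K L (y : K)) :
    ClassGroup.extendedHom (𝓞 K) (𝓞 L) (ClassGroup.mk0 ⟨𝔞, h𝔞⟩) ∈
      sClasses (primesAbove L S) := by
  obtain ⟨y', 𝔟', hy', -, h1, h2⟩ := exists_ideal_root_map hp 𝔞 𝔟 x y hx hy h β hβ
  have hinj : Function.Injective (algebraMap (𝓞 K) (𝓞 L)) :=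
    RingOfIntegers.algebraMap.injective K L
  have hX : algebraMap (𝓞 K) (𝓞 L) x ≠ 0 := (map_ne_zero_iff _ hinj).2 hx
  have h𝔟map : 𝔟.map (algebraMap (𝓞 K) (𝓞 L)) ≠ ⊥ := by
    rw [Ne, Ideal.map_eq_bot_iff_of_injective hinj]
    exact h𝔟0
  have h𝔟'0 : 𝔟' ≠ ⊥ := by
    rintro rfl
    rw [← Ideal.zero_eq_bot, zero_pow hp] at h1
    exact h𝔟map h1.symm
  have h𝔟'm : 𝔟' ∈ (Ideal (𝓞 L))⁰ := mem_nonZeroDivisors_iff_ne_zero.2 h𝔟'0
  rw [ClassGroup.extendedHom_mk0]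
  have e : ClassGroup.mk0 (ClassGroup.extendedIdeal (𝓞 K) (𝓞 L) ⟨𝔞, h𝔞⟩) =
      ClassGroup.mk0 ⟨𝔟', h𝔟'm⟩ :=
    ClassGroup.mk0_eq_mk0_iff.2 ⟨_, y', hX, hy', h2⟩
  rw [e]
  exact mk0_mem_sClasses _ _ (supportedOn_of_pow_eq_map S h𝔟 hp h1) _

/-- **(Cap2, class-group form)**, no root of unity needed for this part. -/
theorem exists_kummer_generator {p : ℕ} (hp : p ≠ 0) (S : Set (Ideal (𝓞 K)))
    (c : ClassGroup (𝓞 K)) (hc : c ^ p ∈ sClasses S) :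
    ∃ α : Kˣ,
      (∀ v : HeightOneSpectrum (𝓞 K), v.asIdeal ∉ S → ∃ z : Kˣ, IsUnitAt v.asIdeal (α / z ^ p)) ∧
      ∀ (L : Type v) [Field L] [NumberField L] [Algebra K L] (β : L),
        β ^ p = algebraMap K L (α : K) →
        ClassGroup.extendedHom (𝓞 K) (𝓞 L) c ∈ sClasses (primesAbove L S) := by
  obtain ⟨⟨𝔞, h𝔞⟩, rfl⟩ := ClassGroup.mk0_surjective c
  rw [← map_pow, mem_sClasses_iff] at hc
  obtain ⟨⟨𝔟, h𝔟m⟩, h𝔟, hc⟩ := hc
  obtain ⟨x, y, hx, hy, hxy⟩ := ClassGroup.mk0_eq_mk0_iff.1 hc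
  have hxK : (x : K) ≠ 0 := RingOfIntegers.coe_ne_zero_iff.2 hx
  have hyK : (y : K) ≠ 0 := RingOfIntegers.coe_ne_zero_iff.2 hy
  have hxy' : Ideal.span {x} * 𝔞 ^ p = Ideal.span {y} * 𝔟 := hxy
  have h𝔟' : SupportedOn S 𝔟 := h𝔟
  refine ⟨Units.mk0 ((y : K) / (x : K)) (div_ne_zero hyK hxK), ?_, ?_⟩
  · intro w hw
    refine exists_isUnitAt_div_pow_of_ideal_eq w 𝔞 𝔟 (mem_nonZeroDivisors_iff_ne_zero.1 h𝔞)
      x y hx hy hxy' (fun hle => hw (h𝔟' _ w.isPrime hle)) _ ?_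
    rw [Units.val_mk0, div_mul_cancel₀ _ hxK]
  · intro L _ _ _ β hβ
    rw [Units.val_mk0] at hβ
    have hβ' : β ^ p * algebraMap K L (x : K) = algebraMap K L (y : K) := by
      rw [hβ, map_div₀, div_mul_cancel₀ _ ((_root_.map_ne_zero _).2 hxK)]
    exact extendedHom_mem_sClasses_of_ideal_eq hp S 𝔞 𝔟 h𝔞
      (mem_nonZeroDivisors_iff_ne_zero.1 h𝔟m) h𝔟' x y hx hy hxy' L β hβ'

/-- **(G8), one Kummer step.**  `K ∋ ζ_p`, `S ⊇ {v ∣ p}`, `c ∈ Cl(𝓞 K)` with `c^p ∈ sClasses S`.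
Then there is `α ∈ Kˣ` such that `L = K(α^{1/p})` (the splitting field of `X^p - α`) is Galois over
`K`, unramified at all primes not above `S` (trivial inertia groups), and `c` dies in `Cl_S(L)`. -/
theorem exists_kummerExt_capitulation {p : ℕ} (hp : p.Prime) (ζ : K)
    (hζ : IsPrimitiveRoot ζ p) (S : Set (Ideal (𝓞 K)))
    (hS : ∀ v : Ideal (𝓞 K), v.IsPrime → (p : 𝓞 K) ∈ v → v ∈ S)
    (c : ClassGroup (𝓞 K)) (hc : c ^ p ∈ sClasses S) :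
    ∃ α : Kˣ, IsGalois K (kummerExt K p (α : K)) ∧
      (∀ (P : Ideal (𝓞 (kummerExt K p (α : K)))) [P.IsPrime], P ≠ ⊥ → P.under (𝓞 K) ∉ S →
        ∀ τ : kummerExt K p (α : K) ≃ₐ[K] kummerExt K p (α : K),
          (∀ z : 𝓞 (kummerExt K p (α : K)), τ • z - z ∈ P) → τ = 1) ∧
      ClassGroup.extendedHom (𝓞 K) (𝓞 (kummerExt K p (α : K))) c ∈
        sClasses (primesAbove (kummerExt K p (α : K)) S) := by
  obtain ⟨α, h1, h2⟩ := exists_kummer_generator.{u, u} hp.ne_zero S c hc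
  refine ⟨α, kummerExt_isGalois hp ζ hζ (α : K), ?_, ?_⟩
  · intro P _ hP hPS τ hτ
    refine kummerExt_inertia_trivial_outside hp ζ hζ S hS α ?_ P hP hPS τ hτ
    intro w hw hw0 hwS
    exact h1 ⟨w, hw, hw0⟩ hwS
  · obtain ⟨β, hβ⟩ := KL.exists_root_splittingField hp.pos (α : K)
    exact h2 _ β hβ

end Fermat.Agent.GC.Capit
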