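/-
GATE-C / C4 (G8) p-capitulation by Kummer layers (helper79): the Kummer step INSIDE `ℚ̄`, in the
prelude language (`IntermediateField.IsUnramifiedOutside S`, valuation subrings of `ℚ̄`).

`F ⊂ ℚ̄` finite, unramified outside `S ∋ p`, `ζ_p ∈ F`, `α ∈ Fˣ` with `p ∣ ord_v α` for every prime `v`
of `𝓞 F` not above `S`, `β ∈ ℚ̄` with `β^p = α`  ⟹  `F(β)` is unramified outside `S`.
-/
import Mathlib
import Fermat.Prelude.Def_GroupCohomology_ContinuousUnramified
import Fermat.Agent.S05.Inertia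
import Fermat.Agent.S13.Global
import Fermat.Agent.GC.Capit.Capitulation

set_option autoImplicit false

open NumberField IsDedekindDomain

namespace Fermat.Agent.GC.Capit

open Fermat.Agent.S14.SI Fermat.Agent.Common_helper32

/-! ### The prime of `𝓞 F` cut out by a valuation subring of `ℚ̄` -/

/-- The prime of `𝓞 F` cut out by a valuation subring of `ℚ̄`. -/
noncomputable def centerAt (F : IntermediateField ℚ Qb) (A : ValuationSubring Qb) : Ideal (𝓞 F) :=
  (centerIdeal A).comap (Fermat.Agent.S13.Global.toZb F)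

theorem mem_centerAt (F : IntermediateField ℚ Qb) (A : ValuationSubring Qb) (a : 𝓞 F) :
    a ∈ centerAt F A ↔ (((a : F) : Qb)) ∈ A.nonunits := by
  unfold centerAt
  rw [Ideal.mem_comap, mem_centerIdeal]
  rfl

instance centerAt_isPrime (F : IntermediateField ℚ Qb) (A : ValuationSubring Qb) :
    (centerAt F A).IsPrime :=
  Ideal.comap_isPrime _ _

/-- The primes of `𝓞 F` above the rational primes in `S`. -/
def primesOver (F : IntermediateField ℚ Qb) (S : Finset Nat.Primes) : Set (Ideal (𝓞 F)) :=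
  {v | ∃ q ∈ S, ((q : ℕ) : 𝓞 F) ∈ v}

/-- A valuation subring of `ℚ̄` lies over at most one rational prime. -/
theorem natPrime_unique_of_mem_nonunits (A : ValuationSubring Qb) {q q' : ℕ} (hq : q.Prime)
    (hq' : q'.Prime) (h : (q : Qb) ∈ A.nonunits) (h' : (q' : Qb) ∈ A.nonunits) : q = q' := by
  by_contra hne
  have hcop : IsCoprime (q : ℤ) (q' : ℤ) :=
    Nat.isCoprime_iff_coprime.2 ((Nat.coprime_primes hq hq').2 hne)
  obtain ⟨a, b, hab⟩ := hcop
  have h1 : ((q : ℕ) : Zb) ∈ centerIdeal A := by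
    rw [mem_centerIdeal]; simpa using h
  have h2 : ((q' : ℕ) : Zb) ∈ centerIdeal A := by
    rw [mem_centerIdeal]; simpa using h'
  have h3 : (1 : Zb) ∈ centerIdeal A := by
    have e : (1 : Zb) = (a : Zb) * ((q : ℕ) : Zb) + (b : Zb) * ((q' : ℕ) : Zb) := by
      have := congrArg (fun z : ℤ => (z : Zb)) hab
      simp only [Int.cast_add, Int.cast_mul, Int.cast_natCast, Int.cast_one] at this
      exact this.symm
    rw [e]
    exact Ideal.add_mem _ (Ideal.mul_mem_left _ _ h1) (Ideal.mul_mem_left _ _ h2)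
  exact (centerIdeal_isPrime A).ne_top ((Ideal.eq_top_iff_one _).2 h3)

theorem natCast_mem_centerAt (F : IntermediateField ℚ Qb) (A : ValuationSubring Qb) (q : ℕ) :
    ((q : ℕ) : 𝓞 F) ∈ centerAt F A ↔ (q : Qb) ∈ A.nonunits := by
  rw [mem_centerAt]
  simp

theorem centerAt_ne_bot (F : IntermediateField ℚ Qb) (A : ValuationSubring Qb) {q : ℕ}
    (hq : q.Prime) (hA : A.LiesOverPrime q) : centerAt F A ≠ ⊥ := by
  intro h
  have h1 : ((q : ℕ) : 𝓞 F) ∈ centerAt F A := (natCast_mem_centerAt F A q).2 hA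
  rw [h, Ideal.mem_bot] at h1
  have h2 : ((q : ℕ) : F) = 0 := by
    have := congrArg (fun z : 𝓞 F => (z : F)) h1
    simpa using this
  exact hq.ne_zero (by exact_mod_cast h2)

theorem centerAt_notMem_primesOver (F : IntermediateField ℚ Qb) (A : ValuationSubring Qb)
    (S : Finset Nat.Primes) (q : Nat.Primes) (hq : q ∉ S) (hA : A.LiesOverPrime (q : ℕ)) :
    centerAt F A ∉ primesOver F S := by
  rintro ⟨q', hq'S, hq'⟩
  have h1 : ((q' : ℕ) : Qb) ∈ A.nonunits := (natCast_mem_centerAt F A q').1 hq'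
  have h2 : (q : ℕ) = (q' : ℕ) := natPrime_unique_of_mem_nonunits A q.2 q'.2 hA h1
  have h3 : q = q' := Subtype.ext h2
  exact hq (h3 ▸ hq'S)

/-! ### Roots of unity are distinct modulo primes not above `p` -/

/-- A `p`-th root of unity `η ≡ 1` modulo a valuation subring of residue characteristic `q ≠ p`
is `1`. -/
theorem eq_one_of_pow_eq_one_of_sub_one_mem_nonunits (A : ValuationSubring Qb) {p q : ℕ}
    (hp : p.Prime) (hq : q.Prime) (hpq : q ≠ p) (hA : (q : Qb) ∈ A.nonunits)
    (η : Qb) (hη : η ^ p = 1) (h1 : η - 1 ∈ A.nonunits) : η = 1 := by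
  by_contra hne
  have : Fact p.Prime := ⟨hp⟩
  have hprim : IsPrimitiveRoot η p := by
    have := IsPrimitiveRoot.orderOf η
    rwa [orderOf_eq_prime hη hne] at this
  have hsum : ∑ i ∈ Finset.range p, η ^ i = 0 := hprim.geom_sum_eq_zero hp.one_lt
  have hηint : IsIntegral ℤ η :=
    IsIntegral.of_pow hp.pos (by rw [hη]; exact isIntegral_one)
  have hηA : η ∈ A := isIntegral_mem_valuationSubring A η hηint
  set e : A := ⟨η, hηA⟩ with he
  have hsumA : ∑ i ∈ Finset.range p, e ^ i = 0 := by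
    apply Subtype.ext
    push_cast
    simpa [he] using hsum
  have he1 : e - 1 ∈ IsLocalRing.maximalIdeal A := by
    obtain ⟨hx, hm⟩ := (A.mem_nonunits_iff_exists_mem_maximalIdeal).1 h1
    have : (⟨η - 1, hx⟩ : A) = e - 1 := Subtype.ext (by simp [he])
    rwa [this] at hm
  have hmk : Ideal.Quotient.mk (IsLocalRing.maximalIdeal A) e = 1 := by
    rw [← sub_eq_zero, ← map_one (Ideal.Quotient.mk (IsLocalRing.maximalIdeal A)), ← map_sub,
      Ideal.Quotient.eq_zero_iff_mem]
    exact he1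
  have hp0 : Ideal.Quotient.mk (IsLocalRing.maximalIdeal A) ((p : ℕ) : A) = 0 := by
    have := congrArg (Ideal.Quotient.mk (IsLocalRing.maximalIdeal A)) hsumA
    rw [map_sum, map_zero] at this
    simp only [map_pow, hmk, one_pow, Finset.sum_const, Finset.card_range, nsmul_eq_mul,
      mul_one] at this
    rw [map_natCast]
    exact this
  have hpA : ((p : ℕ) : Qb) ∈ A.nonunits := by
    rw [A.mem_nonunits_iff_exists_mem_maximalIdeal]
    refine ⟨natCast_mem A p, ?_⟩
    have := Ideal.Quotient.eq_zero_iff_mem.1 hp0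
    have e2 : (⟨((p : ℕ) : Qb), natCast_mem A p⟩ : A) = ((p : ℕ) : A) := Subtype.ext (by simp)
    rw [e2]
    exact this
  exact hpq (natPrime_unique_of_mem_nonunits A hq hp hA hpA)

/-! ### The Kummer step inside `ℚ̄` -/

theorem coe_mem_valuationSubring (F : IntermediateField ℚ Qb) (A : ValuationSubring Qb)
    (a : 𝓞 F) : (((a : F) : Qb)) ∈ A :=
  (toVal A (Fermat.Agent.S13.Global.toZb F a)).2

theorem valuation_coe_eq_one (F : IntermediateField ℚ Qb) (A : ValuationSubring Qb)
    (a : 𝓞 F) (ha : a ∉ centerAt F A) : A.valuation (((a : F) : Qb)) = 1 := by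
  rw [mem_centerAt, A.mem_nonunits_iff, not_lt] at ha
  exact le_antisymm ((A.valuation_le_one_iff _).2 (coe_mem_valuationSubring F A a)) ha

/-- The core: an inertia element at `A` (residue characteristic `q ≠ p`) which fixes `F` fixes every
`p`-th root `β ∈ ℚ̄` of `α ∈ Fˣ`, provided `α` is a `p`-th power times a unit at the prime of `F`
below `A`.  (No root of unity in `F` is needed.) -/
theorem apply_root_eq_of_mem_inertia {p q : ℕ} (hp : p.Prime) (hq : q.Prime) (hpq : q ≠ p)
    (F : IntermediateField ℚ Qb) (A : ValuationSubring Qb) (hA : A.LiesOverPrime q)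
    (σ : GQ) (hσ : σ ∈ A.inertiaSubgroupIn ℚ) (hσF : σ ∈ F.fixingSubgroup)
    (α y : Fˣ) (hu : IsUnitAt (centerAt F A) (α / y ^ p))
    (β : Qb) (hβ : β ^ p = (((α : F)) : Qb)) : σ β = β := by
  obtain ⟨a, b, ha, hb, -, hab⟩ := hu
  have hva := valuation_coe_eq_one F A a ha
  have hvb := valuation_coe_eq_one F A b hb
  have hfix : ∀ x : F, σ (x : Qb) = (x : Qb) := by
    intro x
    rw [IntermediateField.mem_fixingSubgroup_iff] at hσF
    exact hσF x x.2
  have hy0 : (((y : F)) : Qb) ≠ 0 := by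
    have := y.ne_zero
    exact_mod_cast this
  have hα0 : (((α : F)) : Qb) ≠ 0 := by
    have := α.ne_zero
    exact_mod_cast this
  have hβ0 : β ≠ 0 := by
    rintro rfl
    rw [zero_pow hp.ne_zero] at hβ
    exact hα0 hβ.symm
  -- the unit `u = α / y^p`
  have hab' : ((α : F) : Qb) / ((y : F) : Qb) ^ p * (((b : F)) : Qb) = (((a : F)) : Qb) := by
    have := congrArg (fun z : F => (z : Qb)) hab
    simp only [Units.val_div_eq_div_val, Units.val_pow_eq_pow_val] at this
    push_cast at this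
    exact this
  have hvu : A.valuation (((α : F) : Qb) / ((y : F) : Qb) ^ p) = 1 := by
    have := congrArg A.valuation hab'
    rwa [map_mul, hvb, mul_one, hva] at this
  -- `β' = β / y` has valuation one
  have hβ' : (β / ((y : F) : Qb)) ^ p = ((α : F) : Qb) / ((y : F) : Qb) ^ p := by
    rw [div_pow, hβ]
  have hvβ' : A.valuation (β / ((y : F) : Qb)) = 1 := by
    have h1 : A.valuation (β / ((y : F) : Qb)) ^ p = 1 := by
      rw [← map_pow, hβ', hvu]
    exact (pow_eq_one_iff_of_nonneg zero_le hp.ne_zero).mp h1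
  have hxc : β / ((y : F) : Qb) ∈ A := (A.valuation_le_one_iff _).1 hvβ'.le
  have hcx : ((y : F) : Qb) / β ∈ A := by
    rw [← A.valuation_le_one_iff, ← inv_div, map_inv₀, hvβ', inv_one]
  have hη1 := Fermat.Agent.S05.apply_div_self_sub_one_mem_nonunits hσ (hfix y) hxc hcx hβ0 hy0
  have hηp : (σ β / β) ^ p = 1 := by
    rw [div_pow, ← map_pow, hβ, hfix, div_self hα0]
  have := eq_one_of_pow_eq_one_of_sub_one_mem_nonunits A hp hq hpq hA _ hηp hη1
  rwa [div_eq_one_iff_eq hβ0] at this

/-- **(Cap1) in `ℚ̄`**: `F ⊂ ℚ̄` unramified outside `S ∋ p`, `α ∈ Fˣ` with `p ∣ ord_v α` for every prime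
`v` of `𝓞 F` not above `S`, `β^p = α`  ⟹  `F(β)` is unramified outside `S`. -/
theorem isUnramifiedOutside_sup_adjoin_root {p : ℕ} (hp : p.Prime) (S : Finset Nat.Primes)
    (hpS : (⟨p, hp⟩ : Nat.Primes) ∈ S) (F : IntermediateField ℚ Qb)
    (hF : F.IsUnramifiedOutside S) (α : Fˣ)
    (hα : ∀ v : Ideal (𝓞 F), v.IsPrime → v ≠ ⊥ → v ∉ primesOver F S →
      ∃ y : Fˣ, IsUnitAt v (α / y ^ p))
    (β : Qb) (hβ : β ^ p = (((α : F)) : Qb)) :
    (F ⊔ IntermediateField.adjoin ℚ {β}).IsUnramifiedOutside S := by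
  have hfd := hF.1
  have hβint : IsIntegral ℚ β := (Algebra.IsAlgebraic.isAlgebraic β).isIntegral
  have hfd2 : FiniteDimensional ℚ (IntermediateField.adjoin ℚ {β}) :=
    IntermediateField.adjoin.finiteDimensional hβint
  refine ⟨IntermediateField.finiteDimensional_sup _ _, fun q hq A hA σ hσ => ?_⟩
  rw [IntermediateField.fixingSubgroup_sup]
  have hσF : σ ∈ F.fixingSubgroup := hF.2 q hq A hA hσ
  refine ⟨hσF, ?_⟩
  have hqp : (q : ℕ) ≠ p := by
    intro h
    apply hq
    have : q = ⟨p, hp⟩ := Subtype.ext h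
    rw [this]; exact hpS
  obtain ⟨y, hu⟩ := hα (centerAt F A) inferInstance (centerAt_ne_bot F A q.2 hA)
    (centerAt_notMem_primesOver F A S q hq hA)
  have hσβ : σ β = β := apply_root_eq_of_mem_inertia hp q.2 hqp F A hA σ hσ hσF α y hu β hβ
  have hle : IntermediateField.adjoin ℚ {β} ≤ IntermediateField.fixedField (Subgroup.zpowers σ) := by
    rw [IntermediateField.adjoin_simple_le_iff, IntermediateField.mem_fixedField_iff]
    intro g hg
    have h1 : Subgroup.zpowers σ ≤ MulAction.stabilizer GQ β :=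
      Subgroup.zpowers_le.2 (MulAction.mem_stabilizer_iff.2 hσβ)
    exact MulAction.mem_stabilizer_iff.1 (h1 hg)
  exact (IntermediateField.le_iff_le _ _).1 hle (Subgroup.mem_zpowers σ)

end Fermat.Agent.GC.Capit
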