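/-
GATE-C / C4 (G8) (helper79): the Kummer step inside `ℚ̄` for `p^k`-th roots, in ONE step.

`F ⊂ ℚ̄` finite, unramified outside `S ∋ p`, `α ∈ Fˣ` with `p^k ∣ ord_v α` for every prime `v` of `𝓞 F` not
above `S`, `β ∈ ℚ̄` with `β^(p^k) = α`  ⟹  `F(β)` (and its normal closure) is unramified outside `S`.
-/
import Mathlib
import Fermat.Agent.GC.Capit.QbarUnram
import Fermat.Agent.GC.C0.Level

set_option autoImplicit false

open NumberField IsDedekindDomain

namespace Fermat.Agent.GC.Capit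

open Fermat.Agent.S14.SI Fermat.Agent.Common_helper32

/-- A `p^k`-th root of unity `η ≡ 1` modulo a valuation subring of residue characteristic `q ≠ p`
is `1`. -/
theorem eq_one_of_pow_prime_pow_eq_one_of_sub_one_mem_nonunits (A : ValuationSubring Qb) {p q : ℕ}
    (hp : p.Prime) (hq : q.Prime) (hpq : q ≠ p) (hA : (q : Qb) ∈ A.nonunits) (k : ℕ)
    (η : Qb) (hη : η ^ (p ^ k) = 1) (h1 : η - 1 ∈ A.nonunits) : η = 1 := by
  induction k generalizing η with
  | zero => simpa using hη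
  | succ k ih =>
    have hηint : IsIntegral ℤ η :=
      IsIntegral.of_pow (pow_pos hp.pos (k + 1)) (by rw [hη]; exact isIntegral_one)
    have hηA : η ∈ A := isIntegral_mem_valuationSubring A η hηint
    -- `η^p - 1 = (η - 1) * (1 + η + ... + η^(p-1))` is a nonunit
    have h2 : η ^ p - 1 ∈ A.nonunits := by
      have hgeom : η ^ p - 1 = (η - 1) * ∑ i ∈ Finset.range p, η ^ i := by
        rw [mul_comm]; exact (geom_sum_mul η p).symm
      rw [hgeom]
      have hsum : ∑ i ∈ Finset.range p, η ^ i ∈ A :=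
        Subring.sum_mem _ fun i _ => Subring.pow_mem _ hηA i
      rw [A.mem_nonunits_iff, map_mul] at *
      calc A.valuation (η - 1) * A.valuation (∑ i ∈ Finset.range p, η ^ i)
          ≤ A.valuation (η - 1) * 1 := by
            gcongr
            exact (A.valuation_le_one_iff _).2 hsum
        _ < 1 := by rwa [mul_one]
    have h3 : η ^ p = 1 := ih (η ^ p) (by rw [← pow_mul, ← pow_succ']; exact hη) h2
    exact eq_one_of_pow_eq_one_of_sub_one_mem_nonunits A hp hq hpq hA η h3 h1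

/-- An inertia element at `A` (residue characteristic `q ≠ p`) which fixes `F` fixes every
`p^k`-th root `β ∈ ℚ̄` of `α ∈ Fˣ`, provided `α` is a `p^k`-th power times a unit at the prime of `F`
below `A`. -/
theorem apply_root_eq_of_mem_inertia_pow {p q : ℕ} (hp : p.Prime) (hq : q.Prime) (hpq : q ≠ p)
    (k : ℕ) (F : IntermediateField ℚ Qb) (A : ValuationSubring Qb) (hA : A.LiesOverPrime q)
    (σ : GQ) (hσ : σ ∈ A.inertiaSubgroupIn ℚ) (hσF : σ ∈ F.fixingSubgroup)
    (α y : Fˣ) (hu : IsUnitAt (centerAt F A) (α / y ^ (p ^ k)))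
    (β : Qb) (hβ : β ^ (p ^ k) = (((α : F)) : Qb)) : σ β = β := by
  have hpk : p ^ k ≠ 0 := pow_ne_zero k hp.ne_zero
  obtain ⟨a, b, ha, hb, -, hab⟩ := hu
  have hva := valuation_coe_eq_one F A a ha
  have hvb := valuation_coe_eq_one F A b hb
  have hfix : ∀ x : F, σ (x : Qb) = (x : Qb) := by
    intro x
    rw [IntermediateField.mem_fixingSubgroup_iff] at hσF
    exact hσF x x.2
  have hy0 : (((y : F)) : Qb) ≠ 0 := by
    have := y.ne_zero
    exact_mod_cast this
  have hα0 : (((α : F)) : Qb) ≠ 0 := by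
    have := α.ne_zero
    exact_mod_cast this
  have hβ0 : β ≠ 0 := by
    rintro rfl
    rw [zero_pow hpk] at hβ
    exact hα0 hβ.symm
  have hab' : ((α : F) : Qb) / ((y : F) : Qb) ^ (p ^ k) * (((b : F)) : Qb) = (((a : F)) : Qb) := by
    have := congrArg (fun z : F => (z : Qb)) hab
    simp only [Units.val_div_eq_div_val, Units.val_pow_eq_pow_val] at this
    push_cast at this
    exact this
  have hvu : A.valuation (((α : F) : Qb) / ((y : F) : Qb) ^ (p ^ k)) = 1 := by
    have := congrArg A.valuation hab'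
    rwa [map_mul, hvb, mul_one, hva] at this
  have hβ' : (β / ((y : F) : Qb)) ^ (p ^ k) = ((α : F) : Qb) / ((y : F) : Qb) ^ (p ^ k) := by
    rw [div_pow, hβ]
  have hvβ' : A.valuation (β / ((y : F) : Qb)) = 1 := by
    have h1 : A.valuation (β / ((y : F) : Qb)) ^ (p ^ k) = 1 := by
      rw [← map_pow, hβ', hvu]
    exact (pow_eq_one_iff_of_nonneg zero_le hpk).mp h1
  have hxc : β / ((y : F) : Qb) ∈ A := (A.valuation_le_one_iff _).1 hvβ'.le
  have hcx : ((y : F) : Qb) / β ∈ A := by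
    rw [← A.valuation_le_one_iff, ← inv_div, map_inv₀, hvβ', inv_one]
  have hη1 := Fermat.Agent.S05.apply_div_self_sub_one_mem_nonunits hσ (hfix y) hxc hcx hβ0 hy0
  have hηp : (σ β / β) ^ (p ^ k) = 1 := by
    rw [div_pow, ← map_pow, hβ, hfix, div_self hα0]
  have := eq_one_of_pow_prime_pow_eq_one_of_sub_one_mem_nonunits A hp hq hpq hA k _ hηp hη1
  rwa [div_eq_one_iff_eq hβ0] at this

/-- **(Cap1) for `p^k`-th roots.** -/
theorem isUnramifiedOutside_sup_adjoin_root_pow {p : ℕ} (hp : p.Prime) (S : Finset Nat.Primes)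
    (hpS : (⟨p, hp⟩ : Nat.Primes) ∈ S) (k : ℕ) (F : IntermediateField ℚ Qb)
    (hF : F.IsUnramifiedOutside S) (α : Fˣ)
    (hα : ∀ v : Ideal (𝓞 F), v.IsPrime → v ≠ ⊥ → v ∉ primesOver F S →
      ∃ y : Fˣ, IsUnitAt v (α / y ^ (p ^ k)))
    (β : Qb) (hβ : β ^ (p ^ k) = (((α : F)) : Qb)) :
    (F ⊔ IntermediateField.adjoin ℚ {β}).IsUnramifiedOutside S := by
  have hfd := hF.1
  have hβint : IsIntegral ℚ β := (Algebra.IsAlgebraic.isAlgebraic β).isIntegral
  have hfd2 : FiniteDimensional ℚ (IntermediateField.adjoin ℚ {β}) :=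
    IntermediateField.adjoin.finiteDimensional hβint
  refine ⟨IntermediateField.finiteDimensional_sup _ _, fun q hq A hA σ hσ => ?_⟩
  rw [IntermediateField.fixingSubgroup_sup]
  have hσF : σ ∈ F.fixingSubgroup := hF.2 q hq A hA hσ
  refine ⟨hσF, ?_⟩
  have hqp : (q : ℕ) ≠ p := by
    intro h
    apply hq
    have : q = ⟨p, hp⟩ := Subtype.ext h
    rw [this]; exact hpS
  obtain ⟨y, hu⟩ := hα (centerAt F A) inferInstance (centerAt_ne_bot F A q.2 hA)
    (centerAt_notMem_primesOver F A S q hq hA)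
  have hσβ : σ β = β :=
    apply_root_eq_of_mem_inertia_pow hp q.2 hqp k F A hA σ hσ hσF α y hu β hβ
  have hle : IntermediateField.adjoin ℚ {β} ≤ IntermediateField.fixedField (Subgroup.zpowers σ) := by
    rw [IntermediateField.adjoin_simple_le_iff, IntermediateField.mem_fixedField_iff]
    intro g hg
    have h1 : Subgroup.zpowers σ ≤ MulAction.stabilizer GQ β :=
      Subgroup.zpowers_le.2 (MulAction.mem_stabilizer_iff.2 hσβ)
    exact MulAction.mem_stabilizer_iff.1 (h1 hg)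
  exact (IntermediateField.le_iff_le _ _).1 hle (Subgroup.mem_zpowers σ)

/-- **Element form of `(G8)`**: a Galois layer containing a `p^k`-th root of `α`. -/
theorem exists_galois_layer_root {p : ℕ} (hp : p.Prime) (S : Finset Nat.Primes)
    (hpS : (⟨p, hp⟩ : Nat.Primes) ∈ S) (k : ℕ) (F : IntermediateField ℚ Qb)
    (hF : F.IsUnramifiedOutside S) (α : Fˣ)
    (hα : ∀ v : Ideal (𝓞 F), v.IsPrime → v ≠ ⊥ → v ∉ primesOver F S →
      ∃ y : Fˣ, IsUnitAt v (α / y ^ (p ^ k))) :
    ∃ (F' : IntermediateField ℚ Qb), F ≤ F' ∧ F'.IsUnramifiedOutside S ∧ IsGalois ℚ F' ∧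
      ∃ β : Qb, β ∈ F' ∧ β ^ (p ^ k) = (((α : F)) : Qb) := by
  obtain ⟨β, hβ⟩ := IsAlgClosed.exists_pow_nat_eq (((α : F)) : Qb) (pow_pos hp.pos k)
  have hF₁ := isUnramifiedOutside_sup_adjoin_root_pow hp S hpS k F hF α hα β hβ
  set F₁ := F ⊔ IntermediateField.adjoin ℚ {β} with hF₁def
  have hfd := hF₁.1
  have hle₂ : F₁ ≤ IntermediateField.normalClosure ℚ F₁ Qb := IntermediateField.le_normalClosure F₁
  have hβF₁ : β ∈ F₁ := by
    have h1 : IntermediateField.adjoin ℚ {β} ≤ F₁ := le_sup_right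
    exact h1 (IntermediateField.mem_adjoin_simple_self ℚ β)
  refine ⟨IntermediateField.normalClosure ℚ F₁ Qb, le_sup_left.trans hle₂,
    Fermat.Agent.GC.C0.isUnramifiedOutside_normalClosure hF₁, ?_, β, hle₂ hβF₁, hβ⟩
  have : Normal ℚ (IntermediateField.normalClosure ℚ F₁ Qb) := normalClosure.normal ℚ F₁ Qb
  exact ⟨⟩

end Fermat.Agent.GC.Capit
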