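/-
GATE-C / C4 (Q1) (helper79): prime-to-`p` torsion coefficients have no `p`-torsion in `Hlc`.

* `bijective_nsmul_of_torsion_coprime` : on an abelian group all of whose elements are killed by an
  integer prime to `p`, multiplication by `p` is bijective;
* `Hlc_nsmul_injective` : if `p • · : Q → Q` is bijective (`Q` a discrete `G`-module), then `p • ·` is
  injective on `Hlc 𝒰 Q n` (indeed bijective), so `Hlc 𝒰 Q n` has no `p`-torsion;
* `Hlc_no_torsion_of_shortExact` : for `0 → D → C → Q → 0` with such a `Q`: a class of `Hlc^{n+1}(D)` killed by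
  `p^a` whose image in `Hlc^{n+1}(C)` vanishes, vanishes; in particular `Hlc^{n+1}(C)[p^∞] = 0 ⟹ Hlc^{n+1}(D)[p^∞] = 0`.
This is how `(G8)` (`colim Cl_S(L)` has trivial `p`-part) enters: `D = D_S`, `C = colim C_S(L)`.
-/
import Fermat.Agent.GC.Prof.Cor
import Fermat.Agent.GC.Prof.Concrete

set_option autoImplicit false

open CategoryTheory

noncomputable section

namespace Fermat.Agent.GC.Capit.PrimeToP

open Fermat.Agent.GC.Prof

universe u

/-- multiplication by `p` is bijective on a group of torsion prime to `p` -/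
theorem bijective_nsmul_of_torsion_coprime {A : Type*} [AddCommGroup A] (p : ℕ)
    (h : ∀ a : A, ∃ m : ℕ, m.Coprime p ∧ m • a = 0) :
    Function.Bijective (fun a : A => p • a) := by
  constructor
  · intro a b hab
    have hab' : p • (a - b) = 0 := by
      simp only at hab
      rw [smul_sub, hab, sub_self]
    obtain ⟨m, hm, hma⟩ := h (a - b)
    have h1 : ((m.gcd p : ℕ) : ℤ) = (m : ℤ) * m.gcdA p + (p : ℤ) * m.gcdB p := Nat.gcd_eq_gcd_ab m p
    rw [hm] at h1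
    have h2 : (1 : ℤ) • (a - b) = 0 := by
      have : ((1 : ℕ) : ℤ) = (m : ℤ) * m.gcdA p + (p : ℤ) * m.gcdB p := h1
      rw [show (1 : ℤ) = ((1 : ℕ) : ℤ) by simp, this, add_smul, mul_comm (m : ℤ), mul_comm (p : ℤ),
        mul_smul, mul_smul, natCast_zsmul, natCast_zsmul, hma, hab', smul_zero, smul_zero, add_zero]
    rw [one_smul] at h2
    exact sub_eq_zero.1 h2
  · intro a
    obtain ⟨m, hm, hma⟩ := h a
    have h1 : ((m.gcd p : ℕ) : ℤ) = (m : ℤ) * m.gcdA p + (p : ℤ) * m.gcdB p := Nat.gcd_eq_gcd_ab m p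
    rw [hm] at h1
    refine ⟨m.gcdB p • a, ?_⟩
    show p • (m.gcdB p • a) = a
    have h2 : (1 : ℤ) • a = ((m : ℤ) * m.gcdA p + (p : ℤ) * m.gcdB p) • a := by
      rw [← h1]; simp
    rw [one_smul, add_smul, mul_comm (m : ℤ), mul_smul, natCast_zsmul, hma, smul_zero, zero_add,
      mul_smul, natCast_zsmul] at h2
    exact h2.symm

variable {k G : Type u} [CommRing k] [Group G] (𝒰 : LevelSystem G)

section Inverse

variable (Q : Rep.{u} k G) (p : ℕ)

/-- multiplication by `p` as a linear equivalence -/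
def nsmulEquiv (hbij : Function.Bijective (fun x : Q => p • x)) : Q.V ≃ₗ[k] Q.V :=
  LinearEquiv.ofBijective ((p : k) • (LinearMap.id : Q.V →ₗ[k] Q.V)) (by
    have : ⇑((p : k) • (LinearMap.id : Q.V →ₗ[k] Q.V)) = fun x : Q => p • x := by
      funext x
      simp [Nat.cast_smul_eq_nsmul]
    rw [this]
    exact hbij)

theorem nsmulEquiv_apply (hbij : Function.Bijective (fun x : Q => p • x)) (x : Q.V) :
    nsmulEquiv Q p hbij x = p • x := by
  simp [nsmulEquiv, Nat.cast_smul_eq_nsmul]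

/-- the inverse of multiplication by `p`, as a morphism of representations -/
def invNsmul (hbij : Function.Bijective (fun x : Q => p • x)) : Q ⟶ Q :=
  Rep.ofHom
    { toLinearMap := ((nsmulEquiv Q p hbij).symm : Q.V →ₗ[k] Q.V)
      isIntertwining' := fun g => by
        ext y
        obtain ⟨x, rfl⟩ := (nsmulEquiv Q p hbij).surjective y
        simp only [LinearMap.coe_comp, LinearEquiv.coe_coe, Function.comp_apply,
          LinearEquiv.symm_apply_apply]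
        rw [nsmulEquiv_apply, map_nsmul, ← nsmulEquiv_apply Q p hbij, LinearEquiv.symm_apply_apply] }

theorem invNsmul_comp (hbij : Function.Bijective (fun x : Q => p • x)) :
    p • invNsmul Q p hbij = 𝟙 Q := by
  ext x
  show p • (nsmulEquiv Q p hbij).symm x = x
  rw [← nsmulEquiv_apply Q p hbij, LinearEquiv.apply_symm_apply]

end Inverse

section Hlc

variable (Q : Rep.{u} k G) [IsDiscrete 𝒰 Q] (p : ℕ)

/-- if `p` acts bijectively on the coefficients, `Hlc` has no `p`-torsion -/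
theorem Hlc_nsmul_injective (hbij : Function.Bijective (fun x : Q => p • x)) (n : ℕ)
    (x : Hlc 𝒰 Q n) (hx : p • x = 0) : x = 0 := by
  have h1 : HlcMap 𝒰 (𝟙 Q) n x = x := by rw [HlcMap_id]; rfl
  rw [← h1, ← invNsmul_comp Q p hbij, HlcMap_nsmul]
  show p • (HlcMap 𝒰 (invNsmul Q p hbij) n) x = 0
  rw [← map_nsmul, hx, map_zero]

/-- if `p` acts bijectively on the coefficients, it acts surjectively on `Hlc` -/
theorem Hlc_nsmul_surjective (hbij : Function.Bijective (fun x : Q => p • x)) (n : ℕ)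
    (x : Hlc 𝒰 Q n) : ∃ y : Hlc 𝒰 Q n, p • y = x := by
  refine ⟨HlcMap 𝒰 (invNsmul Q p hbij) n x, ?_⟩
  have h1 : HlcMap 𝒰 (𝟙 Q) n x = x := by rw [HlcMap_id]; rfl
  conv_rhs => rw [← h1, ← invNsmul_comp Q p hbij, HlcMap_nsmul]
  rfl

/-- every class with coefficients in a module of torsion prime to `p` is killed by an integer prime
to `p` (a level-constant cochain has finitely many values) -/
theorem Hlc_exists_coprime_nsmul_eq_zero (hQ : ∀ a : Q, ∃ m : ℕ, m.Coprime p ∧ m • a = 0) (n : ℕ)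
    (x : Hlc 𝒰 Q n) : ∃ m : ℕ, m.Coprime p ∧ m • x = 0 := by
  classical
  obtain ⟨z, rfl⟩ := HlcMkₗ_surjective 𝒰 Q n x
  have hfin : (Set.range (z.1.1 : (Fin n → G) → Q)).Finite := IsLC.finite_range z.1.2
  choose mf hmf using hQ
  refine ⟨∏ a ∈ hfin.toFinset, mf a, ?_, ?_⟩
  · exact Nat.Coprime.prod_left fun a _ => (hmf a).1
  · rw [← map_nsmul]
    have : (∏ a ∈ hfin.toFinset, mf a) • z = 0 := by
      apply Subtype.ext
      apply Subtype.ext
      funext g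
      show (∏ a ∈ hfin.toFinset, mf a) • (z.1.1 g) = 0
      have hg : z.1.1 g ∈ hfin.toFinset := by
        rw [Set.Finite.mem_toFinset]
        exact ⟨g, rfl⟩
      obtain ⟨r, hr⟩ := Finset.dvd_prod_of_mem mf hg
      rw [hr, mul_comm, mul_smul, (hmf _).2, smul_zero]
    rw [this, map_zero]

end Hlc

/-- three-term lemma: `A → B → C` exact, `A` of torsion prime to `p`, `C` without `p^j`-torsion ⟹ `B` without
`p^j`-torsion. -/
theorem eq_zero_of_exact_of_coprime {A B C : Type*} [AddCommGroup A] [AddCommGroup B]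
    [AddCommGroup C] (f : A →+ B) (g : B →+ C) (hex : ∀ b, g b = 0 → ∃ a, f a = b) (p : ℕ)
    (hA : ∀ a : A, ∃ m : ℕ, m.Coprime p ∧ m • a = 0) (j : ℕ)
    (hC : ∀ c : C, p ^ j • c = 0 → c = 0) (b : B) (hb : p ^ j • b = 0) : b = 0 := by
  have h1 : g b = 0 := hC _ (by rw [← map_nsmul, hb, map_zero])
  obtain ⟨a, rfl⟩ := hex b h1
  obtain ⟨m, hm, hma⟩ := hA a
  have hmb : m • f a = 0 := by rw [← map_nsmul, hma, map_zero]
  have hcop : m.Coprime (p ^ j) := Nat.Coprime.pow_right j hm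
  have h2 : ((m.gcd (p ^ j) : ℕ) : ℤ) = (m : ℤ) * m.gcdA (p ^ j) + ((p ^ j : ℕ) : ℤ) * m.gcdB (p ^ j) :=
    Nat.gcd_eq_gcd_ab m (p ^ j)
  rw [hcop] at h2
  have h3 : (1 : ℤ) • f a = ((m : ℤ) * m.gcdA (p ^ j) + ((p ^ j : ℕ) : ℤ) * m.gcdB (p ^ j)) • f a := by
    rw [← h2]; simp
  rw [one_smul, add_smul, mul_comm (m : ℤ), mul_comm ((p ^ j : ℕ) : ℤ), mul_smul, mul_smul,
    natCast_zsmul, natCast_zsmul, hmb, hb, smul_zero, smul_zero, add_zero] at h3
  exact h3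

section LES

variable {X : ShortComplex (Rep.{u} k G)} (hX : X.ShortExact)
  [IsDiscrete 𝒰 X.X₁] [IsDiscrete 𝒰 X.X₂] [IsDiscrete 𝒰 X.X₃]

include hX in
/-- **(Q1).** `0 → D → C → Q → 0` with `Q` of torsion prime to `p`: if `Hlc^{n+1}(C)` has no `p^j`-torsion, neither
has `Hlc^{n+1}(D)`. -/
theorem Hlc_succ_eq_zero_of_shortExact (p : ℕ)
    (hQ : ∀ a : X.X₃, ∃ m : ℕ, m.Coprime p ∧ m • a = 0) (n j : ℕ)
    (hC : ∀ c : Hlc 𝒰 X.X₂ (n + 1), p ^ j • c = 0 → c = 0)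
    (x : Hlc 𝒰 X.X₁ (n + 1)) (hx : p ^ j • x = 0) : x = 0 := by
  have hex := Hlc_exact₁ 𝒰 hX n (n + 1) rfl
  rw [ShortComplex.moduleCat_exact_iff] at hex
  exact eq_zero_of_exact_of_coprime
    ((Hlcδ 𝒰 hX n (n + 1) rfl).hom : Hlc 𝒰 X.X₃ n →ₗ[k] Hlc 𝒰 X.X₁ (n + 1)).toAddMonoidHom
    ((HlcMap 𝒰 X.f (n + 1)).hom : Hlc 𝒰 X.X₁ (n + 1) →ₗ[k] Hlc 𝒰 X.X₂ (n + 1)).toAddMonoidHom
    (fun b hb => hex b hb) p (Hlc_exists_coprime_nsmul_eq_zero 𝒰 X.X₃ p hQ n) j hC x hx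

include hX in
/-- **(Q1'), surjectivity on `p`-parts.** every `p^j`-torsion class of `Hlc^{n+1}(C)` comes from a `p^j`-torsion class
of `Hlc^{n+1}(D)`. -/
theorem exists_torsion_lift_of_shortExact (p : ℕ)
    (hQ : ∀ a : X.X₃, ∃ m : ℕ, m.Coprime p ∧ m • a = 0) (n j : ℕ)
    (c : Hlc 𝒰 X.X₂ (n + 1)) (hc : p ^ j • c = 0) :
    ∃ d : Hlc 𝒰 X.X₁ (n + 1), p ^ j • d = 0 ∧ HlcMap 𝒰 X.f (n + 1) d = c := by
  have hQj : ∀ a : X.X₃, ∃ m : ℕ, m.Coprime (p ^ j) ∧ m • a = 0 := fun a => by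
    obtain ⟨m, hm, hma⟩ := hQ a
    exact ⟨m, Nat.Coprime.pow_right j hm, hma⟩
  have hbij := bijective_nsmul_of_torsion_coprime (A := X.X₃) (p ^ j) hQj
  have hgc : HlcMap 𝒰 X.g (n + 1) c = 0 :=
    Hlc_nsmul_injective 𝒰 X.X₃ (p ^ j) hbij (n + 1) _ (by rw [← map_nsmul, hc, map_zero])
  have hex₂ := Hlc_exact₂ 𝒰 hX (n + 1)
  rw [ShortComplex.moduleCat_exact_iff] at hex₂
  obtain ⟨d₀, hd₀⟩ := hex₂ c hgc
  have hd₀' : HlcMap 𝒰 X.f (n + 1) d₀ = c := hd₀
  have hex₁ := Hlc_exact₁ 𝒰 hX n (n + 1) rfl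
  rw [ShortComplex.moduleCat_exact_iff] at hex₁
  obtain ⟨z, hz⟩ := hex₁ (p ^ j • d₀) (by
    show HlcMap 𝒰 X.f (n + 1) (p ^ j • d₀) = 0
    rw [map_nsmul, hd₀', hc])
  have hz' : Hlcδ 𝒰 hX n (n + 1) rfl z = p ^ j • d₀ := hz
  obtain ⟨m, hm, hmz⟩ := Hlc_exists_coprime_nsmul_eq_zero 𝒰 X.X₃ p hQ n z
  have hmd : m • (p ^ j • d₀) = 0 := by rw [← hz', ← map_nsmul, hmz, map_zero]
  have hcop : m.Coprime (p ^ j) := Nat.Coprime.pow_right j hm
  have h2 : ((m.gcd (p ^ j) : ℕ) : ℤ) = (m : ℤ) * m.gcdA (p ^ j) + ((p ^ j : ℕ) : ℤ) * m.gcdB (p ^ j) :=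
    Nat.gcd_eq_gcd_ab m (p ^ j)
  rw [hcop] at h2
  refine ⟨((m : ℤ) * m.gcdA (p ^ j)) • d₀, ?_, ?_⟩
  · rw [smul_comm, mul_comm, mul_smul, natCast_zsmul, hmd, smul_zero]
  · rw [map_zsmul, hd₀']
    have h3 : (m : ℤ) * m.gcdA (p ^ j) = 1 - ((p ^ j : ℕ) : ℤ) * m.gcdB (p ^ j) := by
      rw [eq_sub_iff_add_eq, ← h2]; simp
    rw [h3, sub_smul, one_smul, mul_comm, mul_smul, natCast_zsmul, hc, smul_zero, sub_zero]

end LES

end Fermat.Agent.GC.Capit.PrimeToP
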