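/-
GATE-C / C4 (G8) p-capitulation by Kummer layers (helper79): the theorem inside `ℚ̄`, prelude
language.

`S ∋ p` a finite set of rational primes, `F ⊂ ℚ̄` finite and unramified outside `S`, `𝔞` a nonzero
ideal of `𝓞 F` whose class has `p`-power order in `Cl_S(F)` (`(x) 𝔞^(p^k) = (y) 𝔟`, `𝔟` supported
above `S`).  Then there is a finite `F' ⊇ F` inside `ℚ̄`, unramified outside `S`, in which `𝔞` dies
in `Cl_S(F')`: `(x') 𝔞𝓞_{F'} = (y') 𝔟'` with `𝔟'` supported above `S`.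
-/
import Mathlib
import Fermat.Agent.GC.Capit.QbarUnram

set_option autoImplicit false

open NumberField IsDedekindDomain nonZeroDivisors

namespace Fermat.Agent.GC.Capit

open Fermat.Agent.S14.SI Fermat.Agent.Common_helper32

/-- `𝓞 F → 𝓞 F'` for `F ≤ F'` inside `ℚ̄`. -/
noncomputable def intIncl {F F' : IntermediateField ℚ Qb} (h : F ≤ F') : 𝓞 F →+* 𝓞 F' :=
  RingOfIntegers.mapRingHom (IntermediateField.inclusion h).toRingHom

theorem coe_intIncl {F F' : IntermediateField ℚ Qb} (h : F ≤ F') (a : 𝓞 F) :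
    (((intIncl h a : 𝓞 F') : F') : Qb) = ((a : F) : Qb) := rfl

theorem intIncl_injective {F F' : IntermediateField ℚ Qb} (h : F ≤ F') :
    Function.Injective (intIncl h) := by
  intro a b hab
  apply RingOfIntegers.ext
  apply Subtype.ext
  have := congrArg (fun z : 𝓞 F' => ((z : F') : Qb)) hab
  simpa only [coe_intIncl] using this

theorem intIncl_refl (F : IntermediateField ℚ Qb) : intIncl (le_refl F) = RingHom.id _ := by
  ext a
  rfl

theorem intIncl_comp {F F' F'' : IntermediateField ℚ Qb} (h : F ≤ F') (h' : F' ≤ F'') :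
    (intIncl h').comp (intIncl h) = intIncl (h.trans h') := by
  ext a
  rfl

theorem map_map_intIncl {F F' F'' : IntermediateField ℚ Qb} (h : F ≤ F') (h' : F' ≤ F'')
    (𝔞 : Ideal (𝓞 F)) : (𝔞.map (intIncl h)).map (intIncl h') = 𝔞.map (intIncl (h.trans h')) := by
  rw [Ideal.map_map, intIncl_comp]

theorem map_intIncl_ne_bot {F F' : IntermediateField ℚ Qb} (h : F ≤ F') {𝔞 : Ideal (𝓞 F)}
    (h𝔞 : 𝔞 ≠ ⊥) : 𝔞.map (intIncl h) ≠ ⊥ := by
  rwa [Ne, Ideal.map_eq_bot_iff_of_injective (intIncl_injective h)]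

/-- `𝔞` dies in `Cl_S(F')`: `(x') 𝔞𝓞_{F'} = (y') 𝔟'` with `𝔟'` supported above `S`. -/
def DiesIn (S : Finset Nat.Primes) {F F' : IntermediateField ℚ Qb} (hle : F ≤ F')
    (𝔞 : Ideal (𝓞 F)) : Prop :=
  ∃ (x' y' : 𝓞 F') (𝔟' : Ideal (𝓞 F')), x' ≠ 0 ∧ y' ≠ 0 ∧ SupportedOn (primesOver F' S) 𝔟' ∧
    Ideal.span {x'} * 𝔞.map (intIncl hle) = Ideal.span {y'} * 𝔟'

theorem primesOver_comap {F F' : IntermediateField ℚ Qb} (h : F ≤ F') (S : Finset Nat.Primes)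
    (Q : Ideal (𝓞 F')) (hQ : Q.comap (intIncl h) ∈ primesOver F S) : Q ∈ primesOver F' S := by
  obtain ⟨q, hqS, hq⟩ := hQ
  refine ⟨q, hqS, ?_⟩
  rw [Ideal.mem_comap, map_natCast] at hq
  exact hq

theorem SupportedOn.map_intIncl {F F' : IntermediateField ℚ Qb} (h : F ≤ F')
    (S : Finset Nat.Primes) {𝔟 : Ideal (𝓞 F)} (h𝔟 : SupportedOn (primesOver F S) 𝔟) :
    SupportedOn (primesOver F' S) (𝔟.map (intIncl h)) := by
  intro Q hQ hle
  apply primesOver_comap h S Q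
  exact h𝔟 _ (Ideal.comap_isPrime _ _) (Ideal.map_le_iff_le_comap.1 hle)

/-- Dying persists in bigger fields. -/
theorem DiesIn.mono {S : Finset Nat.Primes} {F F' F'' : IntermediateField ℚ Qb} {hle : F ≤ F'}
    {𝔞 : Ideal (𝓞 F)} (h : DiesIn S hle 𝔞) (hle' : F' ≤ F'') : DiesIn S (hle.trans hle') 𝔞 := by
  obtain ⟨x', y', 𝔟', hx', hy', h𝔟', he⟩ := h
  refine ⟨intIncl hle' x', intIncl hle' y', 𝔟'.map (intIncl hle'),
    (map_ne_zero_iff _ (intIncl_injective hle')).2 hx',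
    (map_ne_zero_iff _ (intIncl_injective hle')).2 hy', h𝔟'.map_intIncl hle' S, ?_⟩
  have := congrArg (Ideal.map (intIncl hle')) he
  rwa [Ideal.map_mul, Ideal.map_mul, Ideal.map_span, Ideal.map_span, Set.image_singleton,
    Set.image_singleton, map_map_intIncl] at this

/-- A finite subextension of `ℚ̄` is a number field. -/
theorem numberField_of_finiteDimensional (F : IntermediateField ℚ Qb)
    (h : FiniteDimensional ℚ F) : NumberField F :=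
  { to_charZero := inferInstance
    to_finiteDimensional := h }

/-- **One Kummer step inside `ℚ̄`.** -/
theorem exists_layer_diesIn_of_pow_prime {p : ℕ} (hp : p.Prime) (S : Finset Nat.Primes)
    (hpS : (⟨p, hp⟩ : Nat.Primes) ∈ S) (F : IntermediateField ℚ Qb) [NumberField F]
    (hF : F.IsUnramifiedOutside S) (𝔞 𝔟 : Ideal (𝓞 F)) (h𝔞 : 𝔞 ≠ ⊥)
    (h𝔟 : SupportedOn (primesOver F S) 𝔟) (x y : 𝓞 F) (hx : x ≠ 0) (hy : y ≠ 0)
    (h : Ideal.span {x} * 𝔞 ^ p = Ideal.span {y} * 𝔟) :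
    ∃ (F' : IntermediateField ℚ Qb) (hle : F ≤ F'), F'.IsUnramifiedOutside S ∧
      DiesIn S hle 𝔞 := by
  have hxF : (x : F) ≠ 0 := RingOfIntegers.coe_ne_zero_iff.2 hx
  have hyF : (y : F) ≠ 0 := RingOfIntegers.coe_ne_zero_iff.2 hy
  set α : Fˣ := Units.mk0 ((y : F) / (x : F)) (div_ne_zero hyF hxF) with hα
  have hαx : (α : F) * (x : F) = (y : F) := by
    rw [hα, Units.val_mk0, div_mul_cancel₀ _ hxF]
  obtain ⟨β, hβ⟩ := IsAlgClosed.exists_pow_nat_eq (((α : F)) : Qb) hp.pos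
  have hF' : (F ⊔ IntermediateField.adjoin ℚ {β}).IsUnramifiedOutside S := by
    refine isUnramifiedOutside_sup_adjoin_root hp S hpS F hF α ?_ β hβ
    intro v hv hv0 hvS
    exact exists_isUnitAt_div_pow_of_ideal_eq ⟨v, hv, hv0⟩ 𝔞 𝔟 h𝔞 x y hx hy h
      (fun hle => hvS (h𝔟 v hv hle)) α hαx
  refine ⟨F ⊔ IntermediateField.adjoin ℚ {β}, le_sup_left, hF', ?_⟩
  set F' := F ⊔ IntermediateField.adjoin ℚ {β} with hF'def
  have hle : F ≤ F' := le_sup_left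
  haveI : NumberField F' := numberField_of_finiteDimensional F' hF'.1
  letI : Algebra F F' := (IntermediateField.inclusion hle).toRingHom.toAlgebra
  have hβF' : β ∈ F' := by
    have h1 : IntermediateField.adjoin ℚ {β} ≤ F' := le_sup_right
    exact h1 (IntermediateField.mem_adjoin_simple_self ℚ β)
  have hβ' : (⟨β, hβF'⟩ : F') ^ p * algebraMap F F' (x : F) = algebraMap F F' (y : F) := by
    apply Subtype.ext
    show β ^ p * ((x : F) : Qb) = ((y : F) : Qb)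
    rw [hβ, ← hαx]
    push_cast
    rfl
  obtain ⟨y', 𝔟', hy', -, h1, h2⟩ :=
    exists_ideal_root_map (K := F) (L := F') hp.ne_zero 𝔞 𝔟 x y hx hy h ⟨β, hβF'⟩ hβ'
  have halg : algebraMap (𝓞 F) (𝓞 F') = intIncl hle := by
    ext a
    rfl
  rw [halg] at h1 h2
  refine ⟨intIncl hle x, y', 𝔟', (map_ne_zero_iff _ (intIncl_injective hle)).2 hx, hy', ?_, h2⟩
  intro Q hQ hQle
  apply primesOver_comap hle S Q
  have h3 : 𝔟.map (intIncl hle) ≤ Q := by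
    rw [← h1]
    exact (Ideal.pow_le_self hp.ne_zero).trans hQle
  exact h𝔟 _ (Ideal.comap_isPrime _ _) (Ideal.map_le_iff_le_comap.1 h3)

/-- **(G8) inside `ℚ̄`, ideal form.**  `S ∋ p`; `F ⊂ ℚ̄` finite, unramified outside `S`; `𝔞` a nonzero
ideal of `𝓞 F` with `(x) 𝔞^(p^k) = (y) 𝔟`, `𝔟` supported above `S`.  Then there is a finite
`F' ⊇ F`, unramified outside `S`, in which `𝔞` dies in `Cl_S(F')`. -/
theorem exists_layer_diesIn {p : ℕ} (hp : p.Prime) (S : Finset Nat.Primes)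
    (hpS : (⟨p, hp⟩ : Nat.Primes) ∈ S) (k : ℕ) :
    ∀ (F : IntermediateField ℚ Qb) [NumberField F], F.IsUnramifiedOutside S →
      ∀ (𝔞 𝔟 : Ideal (𝓞 F)), 𝔞 ≠ ⊥ → SupportedOn (primesOver F S) 𝔟 →
      ∀ (x y : 𝓞 F), x ≠ 0 → y ≠ 0 →
        Ideal.span {x} * 𝔞 ^ (p ^ k) = Ideal.span {y} * 𝔟 →
      ∃ (F' : IntermediateField ℚ Qb) (hle : F ≤ F'), F'.IsUnramifiedOutside S ∧
        DiesIn S hle 𝔞 := by
  induction k with
  | zero =>
    intro F _ hF 𝔞 𝔟 h𝔞 h𝔟 x y hx hy h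
    refine ⟨F, le_refl F, hF, x, y, 𝔟, hx, hy, h𝔟, ?_⟩
    rw [intIncl_refl, Ideal.map_id]
    simpa using h
  | succ k ih =>
    intro F _ hF 𝔞 𝔟 h𝔞 h𝔟 x y hx hy h
    have h' : Ideal.span {x} * (𝔞 ^ (p ^ k)) ^ p = Ideal.span {y} * 𝔟 := by
      rw [← pow_mul, ← pow_succ]; exact h
    have h𝔞k : 𝔞 ^ (p ^ k) ≠ ⊥ := by
      rw [← Ideal.zero_eq_bot]
      exact pow_ne_zero _ (by rwa [Ideal.zero_eq_bot])
    obtain ⟨F₁, hle₁, hF₁, x₁, y₁, 𝔟₁, hx₁, hy₁, h𝔟₁, he₁⟩ :=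
      exists_layer_diesIn_of_pow_prime hp S hpS F hF (𝔞 ^ (p ^ k)) 𝔟 h𝔞k h𝔟 x y hx hy h'
    haveI : NumberField F₁ := numberField_of_finiteDimensional F₁ hF₁.1
    rw [Ideal.map_pow] at he₁
    obtain ⟨F', hle₂, hF', hdies⟩ := ih F₁ hF₁ (𝔞.map (intIncl hle₁)) 𝔟₁
      (map_intIncl_ne_bot hle₁ h𝔞) h𝔟₁ x₁ y₁ hx₁ hy₁ he₁
    refine ⟨F', hle₁.trans hle₂, hF', ?_⟩
    obtain ⟨x', y', 𝔟', hx', hy', h𝔟', he'⟩ := hdies
    refine ⟨x', y', 𝔟', hx', hy', h𝔟', ?_⟩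
    rwa [map_map_intIncl] at he'

end Fermat.Agent.GC.Capit
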