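/-
GATE-C / C4 (G8) p-capitulation by Kummer layers (helper79): class-group form and Galois layers.
-/
import Mathlib
import Fermat.Agent.GC.C0.Level
import Fermat.Agent.GC.Capit.QbarMain

set_option autoImplicit false

open NumberField IsDedekindDomain nonZeroDivisors

namespace Fermat.Agent.GC.Capit

open Fermat.Agent.S14.SI Fermat.Agent.Common_helper32

/-- `DiesIn` in class-group language. -/
theorem diesIn_iff_mk0_mem_sClasses {S : Finset Nat.Primes} {F F' : IntermediateField ℚ Qb}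
    [NumberField F'] (hle : F ≤ F') (𝔞 : Ideal (𝓞 F))
    (h0 : 𝔞.map (intIncl hle) ∈ (Ideal (𝓞 F'))⁰) :
    DiesIn S hle 𝔞 ↔
      ClassGroup.mk0 ⟨𝔞.map (intIncl hle), h0⟩ ∈ sClasses (primesOver F' S) := by
  constructor
  · rintro ⟨x', y', 𝔟', hx', hy', h𝔟', he⟩
    have h𝔟0 : 𝔟' ≠ ⊥ := by
      rintro rfl
      rw [Ideal.mul_bot] at he
      have h1 : Ideal.span {x'} ≠ ⊥ := by
        rwa [Ne, Ideal.span_singleton_eq_bot]
      have h2 : 𝔞.map (intIncl hle) ≠ ⊥ := mem_nonZeroDivisors_iff_ne_zero.1 h0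
      exact (mul_ne_zero (by rwa [Ideal.zero_eq_bot]) (by rwa [Ideal.zero_eq_bot])) he
    have hm : 𝔟' ∈ (Ideal (𝓞 F'))⁰ := mem_nonZeroDivisors_iff_ne_zero.2 h𝔟0
    have e : ClassGroup.mk0 ⟨𝔞.map (intIncl hle), h0⟩ = ClassGroup.mk0 ⟨𝔟', hm⟩ :=
      ClassGroup.mk0_eq_mk0_iff.2 ⟨x', y', hx', hy', he⟩
    rw [e]
    exact mk0_mem_sClasses _ _ h𝔟' _
  · intro h
    obtain ⟨I, hI, e⟩ := (mem_sClasses_iff _ _).1 h
    obtain ⟨x', y', hx', hy', he⟩ := ClassGroup.mk0_eq_mk0_iff.1 e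
    exact ⟨x', y', I, hx', hy', hI, he⟩

/-- `DiesIn` only depends on the ideal class. -/
theorem DiesIn.of_mk0_eq {S : Finset Nat.Primes} {F F' : IntermediateField ℚ Qb}
    [NumberField F] {hle : F ≤ F'} {𝔞 𝔞' : (Ideal (𝓞 F))⁰}
    (h : DiesIn S hle (𝔞 : Ideal (𝓞 F))) (e : ClassGroup.mk0 𝔞' = ClassGroup.mk0 𝔞) :
    DiesIn S hle (𝔞' : Ideal (𝓞 F)) := by
  obtain ⟨u, w, hu, hw, huw⟩ := ClassGroup.mk0_eq_mk0_iff.1 e
  obtain ⟨x', y', 𝔟', hx', hy', h𝔟', he⟩ := h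
  have hinj := intIncl_injective hle
  refine ⟨x' * intIncl hle u, intIncl hle w * y', 𝔟',
    mul_ne_zero hx' ((map_ne_zero_iff _ hinj).2 hu),
    mul_ne_zero ((map_ne_zero_iff _ hinj).2 hw) hy', h𝔟', ?_⟩
  have h1 := congrArg (Ideal.map (intIncl hle)) huw
  rw [Ideal.map_mul, Ideal.map_mul, Ideal.map_span, Ideal.map_span, Set.image_singleton,
    Set.image_singleton] at h1
  rw [← Ideal.span_singleton_mul_span_singleton, ← Ideal.span_singleton_mul_span_singleton,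
    mul_assoc, h1, mul_assoc, ← he]
  ring

/-- **(G8) inside `ℚ̄`, class-group form.**  If `c ∈ Cl(𝓞 F)` has `p`-power order in `Cl_S(F)` then there
is a finite `F' ⊇ F` unramified outside `S` in which every ideal of class `c` dies in `Cl_S(F')`. -/
theorem exists_layer_classGroup {p : ℕ} (hp : p.Prime) (S : Finset Nat.Primes)
    (hpS : (⟨p, hp⟩ : Nat.Primes) ∈ S) (k : ℕ) (F : IntermediateField ℚ Qb) [NumberField F]
    (hF : F.IsUnramifiedOutside S) (c : ClassGroup (𝓞 F))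
    (hc : c ^ (p ^ k) ∈ sClasses (primesOver F S)) :
    ∃ (F' : IntermediateField ℚ Qb) (hle : F ≤ F'), F'.IsUnramifiedOutside S ∧
      ∀ 𝔞 : (Ideal (𝓞 F))⁰, ClassGroup.mk0 𝔞 = c → DiesIn S hle (𝔞 : Ideal (𝓞 F)) := by
  obtain ⟨𝔞₀, rfl⟩ := ClassGroup.mk0_surjective c
  rw [← map_pow, mem_sClasses_iff] at hc
  obtain ⟨𝔟, h𝔟, hc⟩ := hc
  obtain ⟨x, y, hx, hy, hxy⟩ := ClassGroup.mk0_eq_mk0_iff.1 hc
  have hxy' : Ideal.span {x} * (𝔞₀ : Ideal (𝓞 F)) ^ (p ^ k) =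
      Ideal.span {y} * (𝔟 : Ideal (𝓞 F)) := hxy
  obtain ⟨F', hle, hF', hd⟩ := exists_layer_diesIn hp S hpS k F hF (𝔞₀ : Ideal (𝓞 F))
    (𝔟 : Ideal (𝓞 F)) (mem_nonZeroDivisors_iff_ne_zero.1 𝔞₀.2) h𝔟 x y hx hy hxy'
  exact ⟨F', hle, hF', fun 𝔞 h𝔞 => hd.of_mk0_eq h𝔞⟩

local instance isAlgebraicQb_capit : Algebra.IsAlgebraic ℚ (AlgebraicClosure ℚ) :=
  AlgebraicClosure.isAlgebraic ℚ
local instance normalQb_capit : Normal ℚ (AlgebraicClosure ℚ) :=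
  IsAlgClosure.normal ℚ (AlgebraicClosure ℚ)

/-- **(G8) inside `ℚ̄`, Galois layers.**  Same as `exists_layer_diesIn`, with `F'` Galois over `ℚ`. -/
theorem exists_galois_layer_diesIn {p : ℕ} (hp : p.Prime) (S : Finset Nat.Primes)
    (hpS : (⟨p, hp⟩ : Nat.Primes) ∈ S) (k : ℕ) (F : IntermediateField ℚ Qb) [NumberField F]
    (hF : F.IsUnramifiedOutside S) (𝔞 𝔟 : Ideal (𝓞 F)) (h𝔞 : 𝔞 ≠ ⊥)
    (h𝔟 : SupportedOn (primesOver F S) 𝔟) (x y : 𝓞 F) (hx : x ≠ 0) (hy : y ≠ 0)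
    (h : Ideal.span {x} * 𝔞 ^ (p ^ k) = Ideal.span {y} * 𝔟) :
    ∃ (F' : IntermediateField ℚ Qb) (hle : F ≤ F'), F'.IsUnramifiedOutside S ∧ IsGalois ℚ F' ∧
      DiesIn S hle 𝔞 := by
  obtain ⟨F₁, hle₁, hF₁, hd⟩ := exists_layer_diesIn hp S hpS k F hF 𝔞 𝔟 h𝔞 h𝔟 x y hx hy h
  have hfd := hF₁.1
  have hle₂ : F₁ ≤ IntermediateField.normalClosure ℚ F₁ Qb := IntermediateField.le_normalClosure F₁
  refine ⟨IntermediateField.normalClosure ℚ F₁ Qb, hle₁.trans hle₂,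
    Fermat.Agent.GC.C0.isUnramifiedOutside_normalClosure hF₁, ?_, hd.mono hle₂⟩
  have : Normal ℚ (IntermediateField.normalClosure ℚ F₁ Qb) := normalClosure.normal ℚ F₁ Qb
  exact ⟨⟩

/-- **(G8) inside `ℚ̄`, class-group form, Galois layers.** -/
theorem exists_galois_layer_classGroup {p : ℕ} (hp : p.Prime) (S : Finset Nat.Primes)
    (hpS : (⟨p, hp⟩ : Nat.Primes) ∈ S) (k : ℕ) (F : IntermediateField ℚ Qb) [NumberField F]
    (hF : F.IsUnramifiedOutside S) (c : ClassGroup (𝓞 F))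
    (hc : c ^ (p ^ k) ∈ sClasses (primesOver F S)) :
    ∃ (F' : IntermediateField ℚ Qb) (hle : F ≤ F'), F'.IsUnramifiedOutside S ∧ IsGalois ℚ F' ∧
      ∀ 𝔞 : (Ideal (𝓞 F))⁰, ClassGroup.mk0 𝔞 = c → DiesIn S hle (𝔞 : Ideal (𝓞 F)) := by
  obtain ⟨F₁, hle₁, hF₁, hd⟩ := exists_layer_classGroup hp S hpS k F hF c hc
  have hfd := hF₁.1
  have hle₂ : F₁ ≤ IntermediateField.normalClosure ℚ F₁ Qb := IntermediateField.le_normalClosure F₁
  refine ⟨IntermediateField.normalClosure ℚ F₁ Qb, hle₁.trans hle₂,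
    Fermat.Agent.GC.C0.isUnramifiedOutside_normalClosure hF₁, ?_,
    fun 𝔞 h𝔞 => (hd 𝔞 h𝔞).mono hle₂⟩
  have : Normal ℚ (IntermediateField.normalClosure ℚ F₁ Qb) := normalClosure.normal ℚ F₁ Qb
  exact ⟨⟩

end Fermat.Agent.GC.Capit
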