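/-
GATE-C / C4 (helper79): values of `ℚ_S` at primes outside `S`.

`F ⊂ ℚ̄` unramified outside `S`, `A` a valuation subring of `ℚ̄` over `q ∉ S`.  Then the value group of
`F` at `A` is generated by the value of `q`: for `x ∈ Fˣ` there is `n : ℤ` with
`A.valuation x = A.valuation q ^ n`  (`e = 1`).  Consequence (converse of Kummer-unramifiedness):
if `x ∈ Fˣ` has a `p`-th root in a field unramified outside `S` then `p ∣ ord_v x` for all `v ∉ S`.
-/
import Mathlib
import Fermat.Agent.S13.GlobalLift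
import Fermat.Agent.GC.C0.Level
import Fermat.Agent.GC.Capit.QbarMain

set_option autoImplicit false

open NumberField IsDedekindDomain

namespace Fermat.Agent.GC.Capit

open Fermat.Agent.S14.SI Fermat.Agent.Common_helper32

/-! ### Existence of valuation subrings with prescribed center -/

/-- Every nonzero prime of `𝓞 F` is the center of a valuation subring of `ℚ̄`. -/
theorem exists_valuationSubring_centerAt_eq (F : IntermediateField ℚ Qb) [NumberField F]
    (v : Ideal (𝓞 F)) [hvp : v.IsPrime] (hv : v ≠ ⊥) :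
    ∃ A : ValuationSubring Qb, centerAt F A = v := by
  have hvmax : v.IsMaximal := hvp.isMaximal hv
  let f : 𝓞 F →+* Qb := (algebraMap F Qb).comp (algebraMap (𝓞 F) F)
  have hf : Function.Injective f :=
    (algebraMap F Qb).injective.comp (RingOfIntegers.coe_injective)
  let R : Subring Qb := f.range
  let g : 𝓞 F →+* R := f.rangeRestrict
  have hgsurj : Function.Surjective g := f.rangeRestrict_surjective
  have hginj : Function.Injective g := by
    intro a b hab
    apply hf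
    have := congrArg (fun z : R => (z : Qb)) hab
    exact this
  let I : Ideal R := v.map g
  have hI : I ≠ ⊤ := by
    intro h
    have h1 : (1 : R) ∈ I := by rw [h]; trivial
    obtain ⟨a, ha, ha1⟩ := (Ideal.mem_map_iff_of_surjective g hgsurj).1 h1
    have : a = 1 := hginj (by rw [ha1, map_one])
    rw [this] at ha
    exact hvp.ne_top ((Ideal.eq_top_iff_one _).2 ha)
  obtain ⟨A, hRA, hIA⟩ := Ideal.image_subset_nonunits_valuationSubring I hI
  refine ⟨A, ?_⟩
  symm
  apply hvmax.eq_of_le (centerAt_isPrime F A).ne_top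
  intro a ha
  rw [mem_centerAt]
  apply hIA
  exact ⟨g a, Ideal.mem_map_of_mem g ha, rfl⟩

/-! ### Valuations from multiplicities -/

theorem exists_mem_notMem_of_not_dvd {R : Type*} [CommRing R] [IsDedekindDomain R]
    {P 𝔠 : Ideal R} (hP : P.IsPrime) (h : ¬ P ∣ 𝔠) (n : ℕ) : ∃ c ∈ 𝔠 ^ n, c ∉ P := by
  have h1 : ¬ 𝔠 ^ n ≤ P := by
    intro hle
    exact h (Ideal.dvd_iff_le.2 (hP.le_of_pow_le hle))
  exact Set.not_subset.1 h1

/-- `(π) = P 𝔠`, `(x) = P^n 𝔡` with `P ∤ 𝔠, 𝔡`, `P` the center of `A`: then `|x|_A = |π|_A^n`. -/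
theorem valuation_eq_pow_of_factorization (F : IntermediateField ℚ Qb) [NumberField F]
    (A : ValuationSubring Qb) (π x : 𝓞 F) (𝔠 𝔡 : Ideal (𝓞 F)) (n : ℕ)
    (hπ : Ideal.span {π} = centerAt F A * 𝔠) (h𝔠 : ¬ centerAt F A ∣ 𝔠)
    (hx : Ideal.span {x} = centerAt F A ^ n * 𝔡) (h𝔡 : ¬ centerAt F A ∣ 𝔡) :
    A.valuation (((x : F)) : Qb) = A.valuation (((π : F)) : Qb) ^ n := by
  have hP := centerAt_isPrime F A
  have key : Ideal.span {x} * 𝔠 ^ n = Ideal.span {π ^ n} * 𝔡 := by
    rw [← Ideal.span_singleton_pow, hπ, hx, mul_pow]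
    ring
  have hval1 : ∀ a : 𝓞 F, A.valuation (((a : F)) : Qb) ≤ 1 := fun a =>
    (A.valuation_le_one_iff _).2 (coe_mem_valuationSubring F A a)
  have hcoe_mul : ∀ a b : 𝓞 F, ((((a * b : 𝓞 F) : F)) : Qb) = ((a : F) : Qb) * ((b : F) : Qb) := by
    intro a b; push_cast; rfl
  have hcoe_pow : ((((π ^ n : 𝓞 F) : F)) : Qb) = (((π : F)) : Qb) ^ n := by
    push_cast; rfl
  have hv_mul : ∀ a b : 𝓞 F, A.valuation ((((a * b : 𝓞 F) : F)) : Qb) =
      A.valuation (((a : F)) : Qb) * A.valuation (((b : F)) : Qb) := by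
    intro a b; rw [hcoe_mul, map_mul]
  have hv_pow : A.valuation ((((π ^ n : 𝓞 F) : F)) : Qb) = A.valuation (((π : F)) : Qb) ^ n := by
    rw [hcoe_pow, map_pow]
  apply le_antisymm
  · obtain ⟨c, hc, hcP⟩ := exists_mem_notMem_of_not_dvd hP h𝔠 n
    have h1 : x * c ∈ Ideal.span {π ^ n} * 𝔡 := by
      rw [← key]
      exact Ideal.mul_mem_mul (Ideal.mem_span_singleton_self x) hc
    obtain ⟨d, -, hd⟩ := Ideal.mem_span_singleton_mul.1 h1
    have h2 : A.valuation ((((π ^ n * d : 𝓞 F) : F)) : Qb) =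
        A.valuation ((((x * c : 𝓞 F) : F)) : Qb) := by rw [hd]
    rw [hv_mul, hv_mul, hv_pow, valuation_coe_eq_one F A c hcP, mul_one] at h2
    rw [← h2]
    exact mul_le_of_le_one_right zero_le (hval1 d)
  · obtain ⟨d, hd, hdP⟩ := exists_mem_notMem_of_not_dvd hP h𝔡 1
    rw [pow_one] at hd
    have h1 : π ^ n * d ∈ Ideal.span {x} * 𝔠 ^ n := by
      rw [key]
      exact Ideal.mul_mem_mul (Ideal.mem_span_singleton_self _) hd
    obtain ⟨c, -, hc⟩ := Ideal.mem_span_singleton_mul.1 h1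
    have h2 : A.valuation ((((x * c : 𝓞 F) : F)) : Qb) =
        A.valuation ((((π ^ n * d : 𝓞 F) : F)) : Qb) := by rw [hc]
    rw [hv_mul, hv_mul, hv_pow, valuation_coe_eq_one F A d hdP, mul_one] at h2
    rw [← h2]
    exact mul_le_of_le_one_right zero_le (hval1 c)

end Fermat.Agent.GC.Capit
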